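import Fermat.Agent.M59.G5.Seams
import Fermat.Agent.FF.Inst.LevelInertia
import Fermat.Agent.FF.Descent
import Fermat.Agent.FF.HopfOrderSeam

/-!
M59 / block [G5] (helper29), prefix `m59g_`.  LEVEL-3 CUT of (G5-flat) = `m59g_Flat_stmt`.

* `m59g_Tn W p n = W(ℚ̄)[pⁿ]` as a finite `G_ℚ`-module;
* `m59g_IsLocOrd A L₁ M H₁` : `H₁ ⊆ Map(M, ℚ̄)` is a local order at the place `A` with EXPLICIT level
  `L₁` (= main's `ff_IsLocalOrder` once `L₁` is unramified: `m59g_isLocalOrder_of`);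
* **(F1)** `m59g_LocOrd_stmt` : `W` good at `p` ⟹ `W(ℚ̄)[pⁿ]` has a local order at every place `A ∣ p`
  with level `L₁ = ℚ̄^{I_A}` (`ffi_L A`).  THE GEOMETRIC CELL (genus-1 package `m59g_isPkg` +
  main's closed [ADD] `ffa_seamADD`, [GAL] `ffq_seamGAL`).
* **(F-soft)** `m59g_FlatSoft_stmt : m59g_LocOrd_stmt → m59g_Flat_stmt`.  THE ALGEBRAIC CELL:
  for an open ideal `I` of `𝒪` the `G_ℚ`-module `Q = V_𝒪 ⧸ I V_𝒪 = (𝒪 ⧸ I) ⊗_{ℤ_p} V` embeds, by the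
  jointly injective equivariant additive maps `λ_ℓ (b ⊗ v) = ℓ(b) • π_n v`
  (`ℓ : 𝒪 ⧸ I →+ ℤ/pⁿ` the `ℤ_p`-linear functionals, `pⁿ ∈ I`), into copies of `W[pⁿ]`; the ring
  generated by the pull-backs `φ ∘ λ_ℓ`, `φ ∈ H₁`, is a local order of `Q` with the same level;
  main's closed [DESC] `ffx_seamDESC` and [HO] `ffh_seamHO` give the Hopf algebra.
-/

set_option autoImplicit false

open IsLocalRing WeierstrassCurve Fermat.Agent.S58 Fermat.Agent.FF Fermat.Agent.JT3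

namespace Fermat.Agent.M59

/-- `W(ℚ̄)[pⁿ]`. -/
abbrev m59g_Tn (W : WeierstrassCurve ℤ) (p n : ℕ) : Type :=
  ↥(Submodule.torsionBy ℤ (s58_E W) ((p : ℤ) ^ n))

/-- the `G_ℚ`-action on `W(ℚ̄)[pⁿ]` -/
noncomputable instance m59g_instTnAction (W : WeierstrassCurve ℤ) (p n : ℕ) :
    DistribMulAction ff_GQ (m59g_Tn W p n) where
  smul σ x := ⟨σ • (x : s58_E W), by
    have hx := x.2
    rw [Submodule.mem_torsionBy_iff] at hx ⊢
    have h := map_zsmul (DistribSMul.toAddMonoidHom (s58_E W) σ) ((p : ℤ) ^ n) (x : s58_E W)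
    simp only [DistribSMul.toAddMonoidHom_apply] at h
    rw [← h, hx, smul_zero]⟩
  one_smul x := Subtype.ext (one_smul _ _)
  mul_smul σ τ x := Subtype.ext (mul_smul _ _ _)
  smul_zero σ := Subtype.ext (smul_zero _)
  smul_add σ x y := by
    apply Subtype.ext
    show σ • ((x : s58_E W) + (y : s58_E W)) = σ • (x : s58_E W) + σ • (y : s58_E W)
    exact smul_add σ (x : s58_E W) (y : s58_E W)

theorem m59g_coe_smul_Tn (W : WeierstrassCurve ℤ) (p n : ℕ) (σ : ff_GQ) (x : m59g_Tn W p n) :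
    ((σ • x : m59g_Tn W p n) : s58_E W) = σ • (x : s58_E W) := by
  rfl

/-- a **local order at the place `A` with level `L₁`**. -/
structure m59g_IsLocOrd (A : ValuationSubring ff_Qb) (L₁ : IntermediateField ℚ ff_Qb)
    (M : Type) [AddCommGroup M] [DistribMulAction ff_GQ M] (H₁ : Subring (M → ff_Qb)) : Prop where
  eqv : ∀ φ ∈ H₁, ∀ σ ∈ L₁.fixingSubgroup, ∀ x : M, φ (σ • x) = σ (φ x)
  int : ∀ φ ∈ H₁, ∀ x : M, φ x ∈ A
  sep : ∀ x y : M, x ≠ y → ∃ φ ∈ H₁, φ x ≠ φ y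
  comul : ∀ φ ∈ H₁, ∃ (n : ℕ) (a b : Fin n → M → ff_Qb), (∀ i, a i ∈ H₁) ∧ (∀ i, b i ∈ H₁) ∧
    ∀ x y : M, φ (x + y) = ∑ i, a i x * b i y

/-- with the inertia level `L₁ = ℚ̄^{I_A}` this is main's `ff_IsLocalOrder`. -/
theorem m59g_isLocalOrder_of (p : ℕ) [Fact p.Prime] (A : ValuationSubring ff_Qb)
    (hA : A.LiesOverPrime p) (M : Type) [AddCommGroup M] [DistribMulAction ff_GQ M]
    (H₁ : Subring (M → ff_Qb)) (h : m59g_IsLocOrd A (ffi_L A) M H₁) :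
    ff_IsLocalOrder p A M H₁ := by
  have lvl := ffi_lvi p A hA
  refine ⟨⟨ffi_L A, fun a ha hnu => ?_, h.eqv⟩, h.int, h.sep, h.comul⟩
  exact lvl.unr ⟨a, ha⟩ hnu

/-- **(F1)** the geometric cell. -/
def m59g_LocOrd_stmt : Prop :=
  ∀ (p : ℕ) [Fact p.Prime], p ≠ 2 → ∀ W : WeierstrassCurve ℤ, W.Δ ≠ 0 → W.IsGoodPrimeFor p →
  ∀ (n : ℕ) (A : ValuationSubring ff_Qb), A.LiesOverPrime p →
    ∃ H₁ : Subring (m59g_Tn W p n → ff_Qb), m59g_IsLocOrd A (ffi_L A) (m59g_Tn W p n) H₁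

/-- **(F-soft)** the algebraic cell. -/
def m59g_FlatSoft_stmt : Prop := m59g_LocOrd_stmt → m59g_Flat_stmt

end Fermat.Agent.M59
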