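import Fermat.Agent.M59.G5.Flat.WPts
import Fermat.Agent.MZ.J.SSMany
import Fermat.Agent.S58.Red.Hom

/-!
M59 / block [G5] (helper29), prefix `m59g_`.  Cell (G5-flat)(F1), the ABSTRACT INSTANCE of the
genus-1 package: `K` a field, `A : ValuationSubring K`, `O → A` a ring with `O → K`, `O → κ_A` the
induced maps, `W' / O` a Weierstrass curve with good reduction, `j : M →+ W'(K)` a group of points,
`P₀ = (x₀, y₀)` an `O`-point such that no `j z + P₀` reduces to the origin.  Then the points
`PK z = j z + P₀`, `Pκ z = red (j z + P₀)`, `P0 = (x₀, y₀)` satisfy the five point-hypotheses of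
main's [ADD] (`ff_SeamADD`): integrality/reduction, `ff_LinEq` and `ff_Uniq` on both fibres.
-/

set_option autoImplicit false
set_option linter.unusedSectionVars false
set_option linter.unusedVariables false
set_option linter.style.haveILetI false

open Polynomial WeierstrassCurve WeierstrassCurve.Affine IsLocalRing Fermat.Agent.FF
  Fermat.Agent.S58 Fermat.Agent.MZ
open scoped Polynomial.Bivariate TensorProduct

namespace Fermat.Agent.M59

noncomputable section

section OPoint

variable {O : Type} [CommRing O] (W' : Affine O)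

/-- an `O`-point of the chart as an `O`-algebra map `𝒜 → O` -/
def m59g_ptO {x y : O} (h : W'.Equation x y) : W'.CoordinateRing →ₐ[O] O :=
  { (AdjoinRoot.evalEval h : W'.CoordinateRing →+* O) with
    commutes' := fun o => by
      have h1 : algebraMap O W'.CoordinateRing o = CoordinateRing.mk W' (C (C o)) := rfl
      show AdjoinRoot.evalEval h (algebraMap O W'.CoordinateRing o) = _
      rw [h1]
      erw [AdjoinRoot.evalEval_mk]
      simp }

theorem m59g_ptO_mk {x y : O} (h : W'.Equation x y) (g : O[X][Y]) :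
    m59g_ptO W' h (CoordinateRing.mk W' g) = g.evalEval x y :=
  AdjoinRoot.evalEval_mk h g

theorem m59g_pt_congr {K : Type} [Field K] [Algebra O K] {x y x' y' : K}
    (h : (m59g_Wk (k := K) W').Equation x y) (h' : (m59g_Wk (k := K) W').Equation x' y')
    (hx : x = x') (hy : y = y') : m59g_pt W' h = m59g_pt W' h' := by
  subst hx hy
  rfl

theorem m59g_ofId_comp_ptO {K : Type} [Field K] [Algebra O K] {x y : O} (h : W'.Equation x y)
    (hK : (m59g_Wk (k := K) W').Equation (algebraMap O K x) (algebraMap O K y)) :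
    (Algebra.ofId O K).comp (m59g_ptO W' h) = m59g_pt W' hK := by
  refine AlgHom.ext fun a => ?_
  obtain ⟨g, rfl⟩ := AdjoinRoot.mk_surjective a
  show algebraMap O K (m59g_ptO W' h (CoordinateRing.mk W' g)) =
    m59g_pt W' hK (CoordinateRing.mk W' g)
  rw [m59g_ptO_mk, m59g_pt_mk, Polynomial.map_mapRingHom_evalEval]

end OPoint

section Abs

variable {K : Type} [Field K] [DecidableEq K] (A : ValuationSubring K)
  [DecidableEq (ResidueField A)]
  {O : Type} [CommRing O] [Algebra O K] [Algebra O (ResidueField A)]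
  (ι : O →+* A) (hιK : ∀ o, algebraMap O K o = (ι o : K))
  (hικ : ∀ o, algebraMap O (ResidueField A) o = residue A (ι o)) (W' : Affine O)

include hιK hικ in
theorem m59g_model_abs :
    s58r_Model A (m59g_Wk (k := K) W') (m59g_Wk (k := ResidueField A) W') := by
  refine ⟨W'.map ι, ?_, ?_⟩
  · rw [WeierstrassCurve.map_map]
    congr 1
    exact RingHom.ext fun o => (hιK o).symm
  · rw [WeierstrassCurve.map_map]
    congr 1
    exact RingHom.ext fun o => (hικ o).symm

include hιK hικ in
/-- evaluation of a polynomial with `O`-coefficients at an `A`-integral point: it is `A`-integral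
and its residue is the evaluation at the reduced point -/
theorem m59g_eval_int (g : O[X][Y]) (a b : A) :
    ∃ h : (g.map (mapRingHom (algebraMap O K))).evalEval (a : K) (b : K) ∈ A,
      residue A ⟨_, h⟩ =
        (g.map (mapRingHom (algebraMap O (ResidueField A)))).evalEval (residue A a) (residue A b) := by
  set gA : A[X][Y] := g.map (mapRingHom ι) with hgA
  have e1 : (g.map (mapRingHom (algebraMap O K))) = gA.map (mapRingHom A.subtype) := by
    rw [hgA, Polynomial.map_map, Polynomial.mapRingHom_comp]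
    congr 2
    exact RingHom.ext fun o => hιK o
  have e2 : (g.map (mapRingHom (algebraMap O (ResidueField A)))) =
      gA.map (mapRingHom (residue A)) := by
    rw [hgA, Polynomial.map_map, Polynomial.mapRingHom_comp]
    congr 2
    exact RingHom.ext fun o => hικ o
  have e3 : (g.map (mapRingHom (algebraMap O K))).evalEval (a : K) (b : K) =
      ((gA.evalEval a b : A) : K) := by
    rw [e1]
    exact Polynomial.map_mapRingHom_evalEval A.subtype gA a b
  refine ⟨by rw [e3]; exact (gA.evalEval a b).2, ?_⟩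
  rw [e2, Polynomial.map_mapRingHom_evalEval]
  congr 1
  exact Subtype.ext e3

/-- **the abstract instance**. -/
theorem m59g_inst_abs (hinj : Function.Injective (algebraMap O K))
    (hΔκ : (m59g_Wk (k := ResidueField A) W').Δ ≠ 0)
    {M : Type} [AddCommGroup M] (j : M →+ (m59g_Wk (k := K) W').Point)
    (x₀ y₀ : O)
    (h₀ : (m59g_Wk (k := K) W').Nonsingular ((ι x₀ : A) : K) ((ι y₀ : A) : K))
    (hne : ∀ z : M, s58r_red (m59g_model_abs A ι hιK hικ W')
      ⟨j z + Point.some _ _ h₀,
        s58r_mem_E0_of_good (m59g_model_abs A ι hιK hικ W') hΔκ _⟩ ≠ 0) :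
    ∃ (PK : M → Fin 1 → W'.CoordinateRing →ₐ[O] K)
      (Pκ : M → Fin 1 → W'.CoordinateRing →ₐ[O] ResidueField A)
      (P0 : Fin 1 → W'.CoordinateRing →ₐ[O] O) (cx cy : M → K),
      (∀ z, ∃ h : (m59g_Wk (k := K) W').Nonsingular (cx z) (cy z),
        j z + Point.some _ _ h₀ = Point.some _ _ h) ∧
      (∀ z i (g : O[X][Y]), PK z i (CoordinateRing.mk W' g) =
        (g.map (mapRingHom (algebraMap O K))).evalEval (cx z) (cy z)) ∧
      (∀ z i a, ∃ h : PK z i a ∈ A, residue A ⟨_, h⟩ = Pκ z i a) ∧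
      (∀ x y, ff_LinEq O W'.CoordinateRing O K (m59g_Lam W') (m59g_lead W')
        (ff_ptIdeal K (PK (x + y))) (ff_ptIdeal K fun i => (Algebra.ofId O K).comp (P0 i))
        (ff_ptIdeal K (PK x)) (ff_ptIdeal K (PK y))) ∧
      (∀ z, ff_Uniq O W'.CoordinateRing O K (m59g_Lam W') (m59g_lead W')
        (ff_ptIdeal K (PK z))) ∧
      (∀ x y, ff_LinEq O W'.CoordinateRing O (ResidueField A) (m59g_Lam W') (m59g_lead W')
        (ff_ptIdeal (ResidueField A) (Pκ (x + y)))
        (ff_ptIdeal (ResidueField A) fun i => (Algebra.ofId O (ResidueField A)).comp (P0 i))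
        (ff_ptIdeal (ResidueField A) (Pκ x)) (ff_ptIdeal (ResidueField A) (Pκ y))) ∧
      (∀ z, ff_Uniq O W'.CoordinateRing O (ResidueField A) (m59g_Lam W') (m59g_lead W')
        (ff_ptIdeal (ResidueField A) (Pκ z))) := by
  classical
  set hM := m59g_model_abs A ι hιK hικ W' with hhM
  -- the points
  let Q : M → s58r_E0 hM := fun z => ⟨j z + Point.some _ _ h₀, s58r_mem_E0_of_good hM hΔκ _⟩
  have hcoords := fun z => mzj_sm_coords hM (Q z) (hne z)
  choose a b h h' hQ hR using hcoords
  -- the base point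
  let Q₀ : s58r_E0 hM := ⟨Point.some _ _ h₀, s58r_mem_E0_of_good hM hΔκ _⟩
  obtain ⟨h₀', hR₀⟩ := s58r_red_some hM Q₀ (a := ι x₀) (b := ι y₀) (h := h₀) rfl
  have hx₀K : algebraMap O K x₀ = ((ι x₀ : A) : K) := hιK x₀
  have hy₀K : algebraMap O K y₀ = ((ι y₀ : A) : K) := hιK y₀
  have hEqK : (m59g_Wk (k := K) W').Equation (algebraMap O K x₀) (algebraMap O K y₀) := by
    rw [hx₀K, hy₀K]; exact h₀.1
  have hEqO : W'.Equation x₀ y₀ := (Affine.map_equation W' hinj x₀ y₀).mp hEqK
  have hEqκ : (m59g_Wk (k := ResidueField A) W').Equation (algebraMap O (ResidueField A) x₀)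
      (algebraMap O (ResidueField A) y₀) := by
    rw [hικ, hικ]; exact h₀'.1
  have hP0K : (fun i : Fin 1 => (Algebra.ofId O K).comp (m59g_ptO W' hEqO)) =
      fun _ : Fin 1 => m59g_pt W' h₀.1 := by
    funext i
    rw [m59g_ofId_comp_ptO W' hEqO hEqK]
    exact m59g_pt_congr W' _ _ hx₀K hy₀K
  have hP0κ : (fun i : Fin 1 => (Algebra.ofId O (ResidueField A)).comp (m59g_ptO W' hEqO)) =
      fun _ : Fin 1 => m59g_pt W' h₀'.1 := by
    funext i
    rw [m59g_ofId_comp_ptO W' hEqO hEqκ]
    exact m59g_pt_congr W' _ _ (hικ x₀) (hικ y₀)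
  -- sum relations
  have hsumK : ∀ x y : M, Point.some _ _ (h (x + y)) + Point.some _ _ h₀ =
      Point.some _ _ (h x) + Point.some _ _ (h y) := by
    intro x y
    have e1 := hQ (x + y)
    have e2 := hQ x
    have e3 := hQ y
    simp only [Q] at e1 e2 e3
    rw [← e1, ← e2, ← e3, map_add]
    abel
  have hsumκ : ∀ x y : M, Point.some _ _ (h' (x + y)) + Point.some _ _ h₀' =
      Point.some _ _ (h' x) + Point.some _ _ (h' y) := by
    intro x y
    rw [← hR (x + y), ← hR x, ← hR y, ← hR₀, ← map_add, ← map_add]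
    congr 1
    apply Subtype.ext
    simp only [Q, Q₀, AddSubgroup.coe_add, map_add]
    abel
  refine ⟨fun z _ => m59g_pt W' (h z).1, fun z _ => m59g_pt W' (h' z).1,
    fun _ => m59g_ptO W' hEqO, fun z => (a z : K), fun z => (b z : K), ?_, ?_, ?_, ?_, ?_, ?_, ?_⟩
  · intro z
    exact ⟨h z, hQ z⟩
  · intro z i g
    exact m59g_pt_mk W' (h z).1 g
  · intro z i c
    obtain ⟨g, rfl⟩ := AdjoinRoot.mk_surjective c
    show ∃ hh : m59g_pt W' (h z).1 (CoordinateRing.mk W' g) ∈ A,
      residue A ⟨_, hh⟩ = m59g_pt W' (h' z).1 (CoordinateRing.mk W' g)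
    obtain ⟨hh, hres⟩ := m59g_eval_int A ι hιK hικ g (a z) (b z)
    rw [m59g_pt_mk, m59g_pt_mk]
    exact ⟨hh, hres⟩
  · intro x y
    rw [hP0K]
    exact m59g_linEq W' (h (x + y)) h₀ (h x) (h y) (hsumK x y)
  · intro z
    exact m59g_uniq W' (h z).1
  · intro x y
    rw [hP0κ]
    exact m59g_linEq W' (h' (x + y)) h₀' (h' x) (h' y) (hsumκ x y)
  · intro z
    exact m59g_uniq W' (h' z).1

include hιK hικ in
/-- the abstract instance, for curves `WK`, `Wκ` given up to equality (no transport at the call). -/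
theorem m59g_inst_abs' (hinj : Function.Injective (algebraMap O K))
    (WK : Affine K) (hWK : m59g_Wk (k := K) W' = WK)
    (Wκ : Affine (ResidueField A)) (hWκ : m59g_Wk (k := ResidueField A) W' = Wκ)
    (hM : s58r_Model A WK Wκ) (hΔκ : Wκ.Δ ≠ 0)
    {M : Type} [AddCommGroup M] (j : M →+ WK.Point)
    (x₀ y₀ : O) (h₀ : WK.Nonsingular ((ι x₀ : A) : K) ((ι y₀ : A) : K))
    (hne : ∀ z : M, s58r_red hM
      ⟨j z + Point.some _ _ h₀, s58r_mem_E0_of_good hM hΔκ _⟩ ≠ 0) :
    ∃ (PK : M → Fin 1 → W'.CoordinateRing →ₐ[O] K)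
      (Pκ : M → Fin 1 → W'.CoordinateRing →ₐ[O] ResidueField A)
      (P0 : Fin 1 → W'.CoordinateRing →ₐ[O] O) (cx cy : M → K),
      (∀ z, ∃ h : WK.Nonsingular (cx z) (cy z),
        j z + Point.some _ _ h₀ = Point.some _ _ h) ∧
      (∀ z i (g : O[X][Y]), PK z i (CoordinateRing.mk W' g) =
        (g.map (mapRingHom (algebraMap O K))).evalEval (cx z) (cy z)) ∧
      (∀ z i a, ∃ h : PK z i a ∈ A, residue A ⟨_, h⟩ = Pκ z i a) ∧
      (∀ x y, ff_LinEq O W'.CoordinateRing O K (m59g_Lam W') (m59g_lead W')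
        (ff_ptIdeal K (PK (x + y))) (ff_ptIdeal K fun i => (Algebra.ofId O K).comp (P0 i))
        (ff_ptIdeal K (PK x)) (ff_ptIdeal K (PK y))) ∧
      (∀ z, ff_Uniq O W'.CoordinateRing O K (m59g_Lam W') (m59g_lead W')
        (ff_ptIdeal K (PK z))) ∧
      (∀ x y, ff_LinEq O W'.CoordinateRing O (ResidueField A) (m59g_Lam W') (m59g_lead W')
        (ff_ptIdeal (ResidueField A) (Pκ (x + y)))
        (ff_ptIdeal (ResidueField A) fun i => (Algebra.ofId O (ResidueField A)).comp (P0 i))
        (ff_ptIdeal (ResidueField A) (Pκ x)) (ff_ptIdeal (ResidueField A) (Pκ y))) ∧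
      (∀ z, ff_Uniq O W'.CoordinateRing O (ResidueField A) (m59g_Lam W') (m59g_lead W')
        (ff_ptIdeal (ResidueField A) (Pκ z))) := by
  subst hWK hWκ
  exact m59g_inst_abs A ι hιK hικ W' hinj hΔκ j x₀ y₀ h₀ hne

end Abs

end

end Fermat.Agent.M59
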