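/-
M59 / block [G5] (helper29), prefix `m59g_`.  Cell (G5-flat)(P1a): the affine coordinate ring of a
Weierstrass curve with `Δ ≠ 0` over an algebraically closed field is a Dedekind domain.
Mathlib only.
-/
import Mathlib

set_option autoImplicit false
set_option linter.style.haveILetI false

open Polynomial WeierstrassCurve WeierstrassCurve.Affine IsLocalRing
open scoped Polynomial.Bivariate

namespace Fermat.Agent.M59

/-- in a local domain, a factor of a nonzero principal ideal is principal -/
theorem m59g_isPrincipal_of_mul_eq_span {A : Type*} [CommRing A] [IsDomain A] [IsLocalRing A]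
    (I J : Ideal A) (t : A) (ht : t ≠ 0) (h : I * J = Ideal.span {t}) :
    Submodule.IsPrincipal J := by
  have key : ∃ a ∈ I, ∃ b ∈ J, ∃ c : A, IsUnit c ∧ a * b = c * t := by
    by_contra hne
    push Not at hne
    have hle : I * J ≤ maximalIdeal A * Ideal.span {t} := by
      rw [Ideal.mul_le]
      intro a ha b hb
      have hab : a * b ∈ Ideal.span {t} := h ▸ Ideal.mul_mem_mul ha hb
      obtain ⟨c, hc⟩ := Ideal.mem_span_singleton'.1 hab
      have hcu : ¬ IsUnit c := fun hu => hne a ha b hb c hu hc.symm
      rw [← hc]
      exact Ideal.mul_mem_mul ((mem_maximalIdeal c).2 hcu) (Ideal.mem_span_singleton_self t)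
    have ht' : t ∈ maximalIdeal A * Ideal.span {t} :=
      hle (h ▸ Ideal.mem_span_singleton_self t)
    rw [Ideal.mem_mul_span_singleton] at ht'
    obtain ⟨m, hm, hmt⟩ := ht'
    have h0 : (m - 1) * t = 0 := by rw [sub_mul, hmt, one_mul, sub_self]
    rcases mul_eq_zero.1 h0 with h1 | h1
    · have hm1 : m = 1 := sub_eq_zero.1 h1
      exact (mem_maximalIdeal m).1 hm (hm1 ▸ isUnit_one)
    · exact ht h1
  obtain ⟨a, ha, b, hb, c, hc, habc⟩ := key
  obtain ⟨c', hc'⟩ := hc.exists_left_inv
  have ha0 : a ≠ 0 := by
    rintro rfl
    rw [zero_mul] at habc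
    rcases mul_eq_zero.1 habc.symm with h1 | h1
    · exact hc.ne_zero h1
    · exact ht h1
  refine ⟨⟨b, le_antisymm ?_ ?_⟩⟩
  · intro m hm
    have ham : a * m ∈ Ideal.span {t} := h ▸ Ideal.mul_mem_mul ha hm
    obtain ⟨d, hd⟩ := Ideal.mem_span_singleton'.1 ham
    have e : a * m = a * (d * c' * b) := by
      calc a * m = d * t := hd.symm
        _ = d * (c' * c * t) := by rw [hc', one_mul]
        _ = d * c' * (c * t) := by ring
        _ = d * c' * (a * b) := by rw [habc]
        _ = a * (d * c' * b) := by ring
    have e2 : m = d * c' * b := mul_left_cancel₀ ha0 e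
    rw [e2]
    exact Submodule.smul_mem _ _ (Submodule.mem_span_singleton_self b)
  · rw [Submodule.span_singleton_le_iff_mem]
    exact hb


section Coord

variable {k : Type*} [Field k] (W : Affine k)

instance m59g_instFinite : Module.Finite k[X] W.CoordinateRing :=
  Module.Finite.of_basis (CoordinateRing.basis W)

/-- every nonzero prime of the coordinate ring is maximal -/
theorem m59g_isMaximal_of_prime (P : Ideal W.CoordinateRing) [hP : P.IsPrime] (h0 : P ≠ ⊥) :
    P.IsMaximal := by
  haveI : Algebra.IsIntegral k[X] W.CoordinateRing := Algebra.IsIntegral.of_finite _ _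
  obtain ⟨x, hxP, hx0⟩ := Submodule.exists_mem_ne_zero_of_ne_bot h0
  have hc : P.comap (algebraMap k[X] W.CoordinateRing) ≠ ⊥ :=
    Ideal.comap_ne_bot_of_integral_mem hx0 hxP (Algebra.IsIntegral.isIntegral x)
  haveI : (P.comap (algebraMap k[X] W.CoordinateRing)).IsPrime := Ideal.comap_isPrime _ _
  have hmax : (P.comap (algebraMap k[X] W.CoordinateRing)).IsMaximal :=
    Ideal.IsPrime.isMaximal inferInstance hc
  exact Ideal.isMaximal_of_isIntegral_of_isMaximal_comap P hmax

variable [IsAlgClosed k]

theorem m59g_maximal_eq_XYIdeal (P : Ideal W.CoordinateRing) (hP : P.IsMaximal) :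
    ∃ x y : k, W.Equation x y ∧ P = CoordinateRing.XYIdeal W x (C y) := by
  letI : Field (W.CoordinateRing ⧸ P) := Ideal.Quotient.field P
  haveI : Algebra.FiniteType k[X] W.CoordinateRing := inferInstance
  haveI : Algebra.FiniteType k W.CoordinateRing := Algebra.FiniteType.trans (S := k[X]) inferInstance inferInstance
  haveI : Algebra.FiniteType k (W.CoordinateRing ⧸ P) := inferInstance
  haveI : Module.Finite k (W.CoordinateRing ⧸ P) := finite_of_finite_type_of_isJacobsonRing k _
  haveI : Algebra.IsIntegral k (W.CoordinateRing ⧸ P) := Algebra.IsIntegral.of_finite _ _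
  have hbij := IsAlgClosed.algebraMap_bijective_of_isIntegral (k := k) (K := W.CoordinateRing ⧸ P)
  obtain ⟨x, hx⟩ := hbij.2 (Ideal.Quotient.mk P (CoordinateRing.mk W (C X)))
  obtain ⟨y, hy⟩ := hbij.2 (Ideal.Quotient.mk P (CoordinateRing.mk W Y))
  have hCC : ∀ a : k, Ideal.Quotient.mk P (CoordinateRing.mk W (C (C a))) =
      algebraMap k (W.CoordinateRing ⧸ P) a := fun a => rfl
  have hψ : ((Ideal.Quotient.mk P).comp (CoordinateRing.mk W)) =
      (algebraMap k (W.CoordinateRing ⧸ P)).comp (evalEvalRingHom x y) := by
    refine Polynomial.ringHom_ext (fun p => ?_) ?_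
    · have h1 : ((Ideal.Quotient.mk P).comp (CoordinateRing.mk W)).comp (C : k[X] →+* k[X][Y]) =
          ((algebraMap k (W.CoordinateRing ⧸ P)).comp (evalEvalRingHom x y)).comp C := by
        refine Polynomial.ringHom_ext (fun a => ?_) ?_
        · simp only [RingHom.comp_apply, hCC, coe_evalRingHom, eval_C]
        · simp only [RingHom.comp_apply, coe_evalRingHom, eval_C, eval_X, hx]
      exact RingHom.congr_fun h1 p
    · simp only [RingHom.comp_apply, coe_evalRingHom, eval_X, eval_C, hy]
  have heq : W.Equation x y := by
    have h1 := RingHom.congr_fun hψ W.polynomial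
    simp only [RingHom.comp_apply] at h1
    rw [show CoordinateRing.mk W W.polynomial = 0 from AdjoinRoot.mk_self, map_zero] at h1
    exact hbij.1 (h1.symm.trans (map_zero _).symm)
  refine ⟨x, y, heq, ?_⟩
  have hXmem : CoordinateRing.XClass W x ∈ P := by
    rw [← Ideal.Quotient.eq_zero_iff_mem, CoordinateRing.XClass, C_sub, map_sub, map_sub, hCC, hx,
      sub_self]
  have hYmem : CoordinateRing.YClass W (C y) ∈ P := by
    rw [← Ideal.Quotient.eq_zero_iff_mem, CoordinateRing.YClass, map_sub, map_sub, hCC, hy,
      sub_self]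
  have hle : CoordinateRing.XYIdeal W x (C y) ≤ P := by
    rw [CoordinateRing.XYIdeal, Ideal.span_le]
    intro z hz
    rcases hz with rfl | rfl
    · exact hXmem
    · exact hYmem
  have hXYmax : (CoordinateRing.XYIdeal W x (C y)).IsMaximal := by
    apply Ideal.Quotient.maximal_of_isField
    exact MulEquiv.isField (Field.toIsField k)
      (CoordinateRing.quotientXYIdealEquiv (W' := W) (x := x) (y := C y) heq).toMulEquiv
  exact (hXYmax.eq_of_le hP.ne_top hle).symm

/-- **the coordinate ring of a smooth Weierstrass curve over an algebraically closed field is a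
Dedekind domain** -/
theorem m59g_coordRing_isDedekindDomain (hΔ : W.Δ ≠ 0) : IsDedekindDomain W.CoordinateRing := by
  haveI : IsDedekindDomainDvr W.CoordinateRing := by
    refine { toIsNoetherian := inferInstance, is_dvr_at_nonzero_prime := ?_ }
    intro P hP0 hPp
    haveI := hPp
    have hmax := m59g_isMaximal_of_prime W P hP0
    obtain ⟨x, y, heq, rfl⟩ := m59g_maximal_eq_XYIdeal W P hmax
    have hns : W.Nonsingular x y := (W.equation_iff_nonsingular_of_Δ_ne_zero hΔ).1 heq
    have hmul := CoordinateRing.XYIdeal_neg_mul hns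
    have hinj : Function.Injective (algebraMap W.CoordinateRing
        (Localization.AtPrime (CoordinateRing.XYIdeal W x (C y)))) :=
      IsLocalization.injective _
        (Ideal.primeCompl_le_nonZeroDivisors (CoordinateRing.XYIdeal W x (C y)))
    have hmap : Ideal.map (algebraMap W.CoordinateRing
          (Localization.AtPrime (CoordinateRing.XYIdeal W x (C y))))
          (CoordinateRing.XYIdeal W x (C (W.negY x y))) *
        maximalIdeal (Localization.AtPrime (CoordinateRing.XYIdeal W x (C y))) =
        Ideal.span {algebraMap W.CoordinateRing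
          (Localization.AtPrime (CoordinateRing.XYIdeal W x (C y))) (CoordinateRing.XClass W x)} := by
      rw [← Localization.AtPrime.map_eq_maximalIdeal, ← Ideal.map_mul, hmul, CoordinateRing.XIdeal,
        Ideal.map_span, Set.image_singleton]
    have ht0 : algebraMap W.CoordinateRing
        (Localization.AtPrime (CoordinateRing.XYIdeal W x (C y))) (CoordinateRing.XClass W x) ≠ 0 := by
      intro h
      exact CoordinateRing.XClass_ne_zero x (hinj (by rw [h, map_zero]))
    have hprin := m59g_isPrincipal_of_mul_eq_span _ _ _ ht0 hmap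
    have hPIR : IsPrincipalIdealRing (Localization.AtPrime (CoordinateRing.XYIdeal W x (C y))) :=
      ((tfae_of_isNoetherianRing_of_isLocalRing_of_isDomain
        (Localization.AtPrime (CoordinateRing.XYIdeal W x (C y)))).out 4 0).1 hprin
    exact { toIsPrincipalIdealRing := hPIR
            toIsLocalRing := inferInstance
            not_a_field' := by
              rw [← Localization.AtPrime.map_eq_maximalIdeal, Ne,
                Ideal.map_eq_bot_iff_of_injective hinj]
              exact hP0 }
  infer_instance

end Coord

end Fermat.Agent.M59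

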