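/-
M59 / block [G5] (helper29), prefix `m59g_`.  Cell (G5-flat)(P1b): the weight filtration of the affine
coordinate ring of a Weierstrass curve (`X`, `Y` of weights `2`, `3`) through the `O`-linear
embedding `Φ (p + q Y) = p(T²) + T³ q(T²)` into `O[T]`.  Mathlib only.
-/
import Mathlib

set_option autoImplicit false
set_option linter.unusedSimpArgs false
set_option linter.unusedVariables false

open Polynomial WeierstrassCurve WeierstrassCurve.Affine
open scoped Polynomial.Bivariate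

namespace Fermat.Agent.M59

noncomputable section

variable {O : Type} [CommRing O] (W' : Affine O)

/-- `F = X³ + a₂ X² + a₄ X + a₆` -/
def m59g_F : O[X] := X ^ 3 + C W'.a₂ * X ^ 2 + C W'.a₄ * X + C W'.a₆

/-- `G = a₁ X + a₃` -/
def m59g_G : O[X] := C W'.a₁ * X + C W'.a₃

/-- the element `p + q Y` -/
def m59g_el (p q : O[X]) : W'.CoordinateRing :=
  p • (1 : W'.CoordinateRing) + q • CoordinateRing.mk W' Y

theorem m59g_el_mul (p₁ q₁ p₂ q₂ : O[X]) :
    m59g_el W' p₁ q₁ * m59g_el W' p₂ q₂ =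
      m59g_el W' (p₁ * p₂ + q₁ * q₂ * m59g_F W')
        (p₁ * q₂ + q₁ * p₂ - q₁ * q₂ * m59g_G W') := by
  have h1 : m59g_el W' p₂ q₂ =
      CoordinateRing.mk W' (C p₂) + CoordinateRing.mk W' Y * CoordinateRing.mk W' (C q₂) := by
    unfold m59g_el
    rw [CoordinateRing.smul, CoordinateRing.smul, mul_one, mul_comm]
  rw [h1, mul_add, ← mul_assoc]
  unfold m59g_el
  rw [CoordinateRing.smul_basis_mul_C, CoordinateRing.smul_basis_mul_Y,
    CoordinateRing.smul_basis_mul_C]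
  unfold m59g_F m59g_G
  module

theorem m59g_el_add (p q p' q' : O[X]) :
    m59g_el W' (p + p') (q + q') = m59g_el W' p q + m59g_el W' p' q' := by
  unfold m59g_el; module

theorem m59g_el_surj (x : W'.CoordinateRing) : ∃ p q : O[X], x = m59g_el W' p q := by
  obtain ⟨p, q, h⟩ := CoordinateRing.exists_smul_basis_eq x
  exact ⟨p, q, h.symm⟩

/-- the two coordinates -/
def m59g_cp : W'.CoordinateRing →ₗ[O] O[X] :=
  ((CoordinateRing.basis W').coord 0).restrictScalars O

def m59g_cq : W'.CoordinateRing →ₗ[O] O[X] :=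
  ((CoordinateRing.basis W').coord 1).restrictScalars O

theorem m59g_el_eq (p q : O[X]) :
    m59g_el W' p q = p • CoordinateRing.basis W' 0 + q • CoordinateRing.basis W' 1 := by
  rw [CoordinateRing.basis_zero, CoordinateRing.basis_one]; rfl

theorem m59g_cp_el (p q : O[X]) : m59g_cp W' (m59g_el W' p q) = p := by
  rw [m59g_el_eq]
  simp only [m59g_cp, LinearMap.restrictScalars_apply, Module.Basis.coord_apply, map_add, map_smul,
    Module.Basis.repr_self, Finsupp.add_apply, Finsupp.smul_apply, Finsupp.single_apply]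
  simp

theorem m59g_cq_el (p q : O[X]) : m59g_cq W' (m59g_el W' p q) = q := by
  rw [m59g_el_eq]
  simp only [m59g_cq, LinearMap.restrictScalars_apply, Module.Basis.coord_apply, map_add, map_smul,
    Module.Basis.repr_self, Finsupp.add_apply, Finsupp.smul_apply, Finsupp.single_apply]
  simp

/-- `Φ (p + q Y) = p(T²) + T³ q(T²)` -/
def m59g_Phi : W'.CoordinateRing →ₗ[O] O[X] :=
  (expand O 2).toLinearMap ∘ₗ m59g_cp W' +
    (LinearMap.mulLeft O (X ^ 3 : O[X])) ∘ₗ (expand O 2).toLinearMap ∘ₗ m59g_cq W'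

theorem m59g_Phi_el (p q : O[X]) :
    m59g_Phi W' (m59g_el W' p q) = expand O 2 p + X ^ 3 * expand O 2 q := by
  simp [m59g_Phi, m59g_cp_el, m59g_cq_el]


/-! ### coefficients of `Φ` -/

theorem m59g_coeff_Phi_el (p q : O[X]) (n : ℕ) :
    (m59g_Phi W' (m59g_el W' p q)).coeff n =
      (if 2 ∣ n then p.coeff (n / 2) else 0) +
        (if 3 ≤ n then (if 2 ∣ n - 3 then q.coeff ((n - 3) / 2) else 0) else 0) := by
  rw [m59g_Phi_el, coeff_add, coeff_expand (by norm_num : 0 < 2), coeff_X_pow_mul',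
    coeff_expand (by norm_num : 0 < 2)]

theorem m59g_coeff_Phi_even (p q : O[X]) (i : ℕ) :
    (m59g_Phi W' (m59g_el W' p q)).coeff (2 * i) = p.coeff i := by
  rw [m59g_coeff_Phi_el]
  have h1 : (2 : ℕ) ∣ 2 * i := dvd_mul_right 2 i
  have h2 : ¬ ((2 : ℕ) ∣ 2 * i - 3 ∧ 3 ≤ 2 * i) := by omega
  rw [if_pos h1, Nat.mul_div_cancel_left i (by norm_num : 0 < 2)]
  by_cases h3 : 3 ≤ 2 * i
  · rw [if_pos h3, if_neg (fun h => h2 ⟨h, h3⟩), add_zero]
  · rw [if_neg h3, add_zero]

theorem m59g_coeff_Phi_odd (p q : O[X]) (i : ℕ) :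
    (m59g_Phi W' (m59g_el W' p q)).coeff (2 * i + 3) = q.coeff i := by
  rw [m59g_coeff_Phi_el]
  have h1 : ¬ (2 : ℕ) ∣ 2 * i + 3 := by omega
  have h2 : (2 : ℕ) ∣ 2 * i + 3 - 3 := by rw [Nat.add_sub_cancel]; exact dvd_mul_right 2 i
  have h3 : 3 ≤ 2 * i + 3 := by omega
  rw [if_neg h1, if_pos h3, if_pos h2, zero_add, Nat.add_sub_cancel,
    Nat.mul_div_cancel_left i (by norm_num : 0 < 2)]

theorem m59g_coeff_Phi_one (x : W'.CoordinateRing) : (m59g_Phi W' x).coeff 1 = 0 := by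
  obtain ⟨p, q, rfl⟩ := m59g_el_surj W' x
  rw [m59g_coeff_Phi_el]
  simp

theorem m59g_Phi_injective : Function.Injective (m59g_Phi W') := by
  rw [← LinearMap.ker_eq_bot, LinearMap.ker_eq_bot']
  intro x hx
  obtain ⟨p, q, rfl⟩ := m59g_el_surj W' x
  have hp : p = 0 := by
    ext i
    rw [← m59g_coeff_Phi_even W' p q i, hx, coeff_zero, coeff_zero]
  have hq : q = 0 := by
    ext i
    rw [← m59g_coeff_Phi_odd W' p q i, hx, coeff_zero, coeff_zero]
  rw [hp, hq]
  simp [m59g_el]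

/-! ### the product formula -/

/-- the correction polynomial `E = F(T²) - T⁶ - T³ G(T²)` -/
def m59g_E : O[X] :=
  C W'.a₂ * X ^ 4 + C W'.a₄ * X ^ 2 + C W'.a₆ - C W'.a₁ * X ^ 5 - C W'.a₃ * X ^ 3

theorem m59g_E_natDegree : (m59g_E W').natDegree ≤ 5 := by
  unfold m59g_E
  compute_degree

theorem m59g_Phi_mul (x y : W'.CoordinateRing) :
    m59g_Phi W' (x * y) = m59g_Phi W' x * m59g_Phi W' y +
      expand O 2 (m59g_cq W' x) * expand O 2 (m59g_cq W' y) * m59g_E W' := by
  obtain ⟨p₁, q₁, rfl⟩ := m59g_el_surj W' x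
  obtain ⟨p₂, q₂, rfl⟩ := m59g_el_surj W' y
  rw [m59g_el_mul, m59g_Phi_el, m59g_Phi_el, m59g_Phi_el, m59g_cq_el, m59g_cq_el]
  unfold m59g_F m59g_G m59g_E
  simp only [map_add, map_sub, map_mul, map_pow, expand_X, expand_C]
  ring


/-! ### the filtration -/

/-- `Λ m` : pole order `≤ m` at infinity -/
def m59g_Lam (m : ℕ) : Submodule O W'.CoordinateRing :=
  (degreeLE O (m : WithBot ℕ)).comap (m59g_Phi W')

theorem m59g_mem_Lam {m : ℕ} {x : W'.CoordinateRing} :
    x ∈ m59g_Lam W' m ↔ (m59g_Phi W' x).degree ≤ m := by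
  rw [m59g_Lam, Submodule.mem_comap, mem_degreeLE]

theorem m59g_mem_Lam_iff_coeff {m : ℕ} {x : W'.CoordinateRing} :
    x ∈ m59g_Lam W' m ↔ ∀ n : ℕ, m < n → (m59g_Phi W' x).coeff n = 0 := by
  rw [m59g_mem_Lam, degree_le_iff_coeff_zero]
  constructor
  · intro h n hn
    exact h n (by exact_mod_cast hn)
  · intro h n hn
    exact h n (by exact_mod_cast hn)

theorem m59g_Lam_mono : Monotone (m59g_Lam W') := by
  intro a b hab x hx
  rw [m59g_mem_Lam] at hx ⊢
  exact hx.trans (by exact_mod_cast hab)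

theorem m59g_Lam_exh (x : W'.CoordinateRing) : ∃ m, x ∈ m59g_Lam W' m :=
  ⟨(m59g_Phi W' x).natDegree, (m59g_mem_Lam W').2 degree_le_natDegree⟩

theorem m59g_Phi_one : m59g_Phi W' 1 = 1 := by
  have h : (1 : W'.CoordinateRing) = m59g_el W' 1 0 := by simp [m59g_el]
  rw [h, m59g_Phi_el]
  simp

theorem m59g_Phi_algebraMap (o : O) : m59g_Phi W' (algebraMap O W'.CoordinateRing o) = C o := by
  rw [Algebra.algebraMap_eq_smul_one, map_smul, m59g_Phi_one, smul_eq_C_mul, mul_one]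

theorem m59g_one_mem : (1 : W'.CoordinateRing) ∈ m59g_Lam W' 0 := by
  rw [m59g_mem_Lam, m59g_Phi_one]
  exact degree_one_le

theorem m59g_zero_const (x : W'.CoordinateRing) (hx : x ∈ m59g_Lam W' 0) :
    ∃ o : O, x = algebraMap O W'.CoordinateRing o := by
  rw [m59g_mem_Lam] at hx
  refine ⟨(m59g_Phi W' x).coeff 0, m59g_Phi_injective W' ?_⟩
  rw [m59g_Phi_algebraMap]
  exact eq_C_of_degree_le_zero (by exact_mod_cast hx)

/-- the `Y`-part of an element of `Λ m` has degree `≤ m - 3` -/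
theorem m59g_Bq_coeff {m : ℕ} {x : W'.CoordinateRing} (hx : x ∈ m59g_Lam W' m) (n : ℕ)
    (hn : m < n + 3) : (expand O 2 (m59g_cq W' x)).coeff n = 0 := by
  obtain ⟨p, q, rfl⟩ := m59g_el_surj W' x
  rw [m59g_cq_el, coeff_expand (by norm_num : 0 < 2)]
  split_ifs with h2
  · obtain ⟨i, rfl⟩ := h2
    rw [Nat.mul_div_cancel_left i (by norm_num : 0 < 2), ← m59g_coeff_Phi_odd W' p q i]
    exact (m59g_mem_Lam_iff_coeff W').1 hx _ hn
  · rfl

theorem m59g_Bq_zero {m : ℕ} {x : W'.CoordinateRing} (hx : x ∈ m59g_Lam W' m) (hm : m < 3) :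
    expand O 2 (m59g_cq W' x) = 0 := by
  ext n
  rw [coeff_zero]
  exact m59g_Bq_coeff W' hx n (by omega)

theorem m59g_Bq_natDegree {m : ℕ} {x : W'.CoordinateRing} (hx : x ∈ m59g_Lam W' m) :
    (expand O 2 (m59g_cq W' x)).natDegree ≤ m - 3 := by
  rw [natDegree_le_iff_coeff_eq_zero]
  intro n hn
  exact m59g_Bq_coeff W' hx n (by omega)

/-- the correction term has degree `< a + b` -/
theorem m59g_corr_coeff {a b : ℕ} {x y : W'.CoordinateRing} (hx : x ∈ m59g_Lam W' a)
    (hy : y ∈ m59g_Lam W' b) (n : ℕ) (hn : a + b ≤ n) :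
    (expand O 2 (m59g_cq W' x) * expand O 2 (m59g_cq W' y) * m59g_E W').coeff n = 0 := by
  by_cases ha : a < 3
  · rw [m59g_Bq_zero W' hx ha, zero_mul, zero_mul, coeff_zero]
  by_cases hb : b < 3
  · rw [m59g_Bq_zero W' hy hb, mul_zero, zero_mul, coeff_zero]
  apply coeff_eq_zero_of_natDegree_lt
  have h1 := m59g_Bq_natDegree W' hx
  have h2 := m59g_Bq_natDegree W' hy
  have h3 := m59g_E_natDegree W'
  have h4 : (expand O 2 (m59g_cq W' x) * expand O 2 (m59g_cq W' y) * m59g_E W').natDegree ≤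
      (a - 3) + (b - 3) + 5 :=
    (natDegree_mul_le).trans (add_le_add ((natDegree_mul_le).trans (add_le_add h1 h2)) h3)
  omega

theorem m59g_mul_mem (a b : ℕ) (x y : W'.CoordinateRing) (hx : x ∈ m59g_Lam W' a)
    (hy : y ∈ m59g_Lam W' b) : x * y ∈ m59g_Lam W' (a + b) := by
  rw [m59g_mem_Lam_iff_coeff]
  intro n hn
  rw [m59g_Phi_mul, coeff_add, m59g_corr_coeff W' hx hy n hn.le, add_zero]
  apply coeff_eq_zero_of_degree_lt
  have h1 := (m59g_mem_Lam W').1 hx
  have h2 := (m59g_mem_Lam W').1 hy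
  calc (m59g_Phi W' x * m59g_Phi W' y).degree
      ≤ (m59g_Phi W' x).degree + (m59g_Phi W' y).degree := degree_mul_le _ _
    _ ≤ (a : WithBot ℕ) + (b : WithBot ℕ) := add_le_add h1 h2
    _ < (n : WithBot ℕ) := by exact_mod_cast hn

/-- the leading term -/
def m59g_lead (m : ℕ) : ↥(m59g_Lam W' m) →ₗ[O] O :=
  (lcoeff O m) ∘ₗ (m59g_Phi W') ∘ₗ (m59g_Lam W' m).subtype

theorem m59g_lead_apply (m : ℕ) (x : ↥(m59g_Lam W' m)) :
    m59g_lead W' m x = (m59g_Phi W' (x : W'.CoordinateRing)).coeff m := rfl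

theorem m59g_lead_ker (m : ℕ) (x : ↥(m59g_Lam W' (m + 1))) :
    m59g_lead W' (m + 1) x = 0 ↔ (x : W'.CoordinateRing) ∈ m59g_Lam W' m := by
  rw [m59g_lead_apply, m59g_mem_Lam_iff_coeff]
  constructor
  · intro h n hn
    rcases Nat.lt_or_ge (m + 1) n with h1 | h1
    · exact (m59g_mem_Lam_iff_coeff W').1 x.2 n h1
    · have : n = m + 1 := by omega
      rw [this]; exact h
  · intro h
    exact h (m + 1) (Nat.lt_succ_self m)

theorem m59g_lead_zero (x : ↥(m59g_Lam W' 0)) (h : m59g_lead W' 0 x = 0) : x = 0 := by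
  apply Subtype.ext
  apply m59g_Phi_injective W'
  rw [m59g_lead_apply] at h
  have h1 := (m59g_mem_Lam W').1 x.2
  have h2 : m59g_Phi W' (x : W'.CoordinateRing) = C ((m59g_Phi W' (x : W'.CoordinateRing)).coeff 0) :=
    eq_C_of_degree_le_zero (by exact_mod_cast h1)
  rw [h2, h, map_zero]
  simp

theorem m59g_lead_one : m59g_lead W' 0 ⟨1, m59g_one_mem W'⟩ = 1 := by
  rw [m59g_lead_apply, m59g_Phi_one, coeff_one_zero]

theorem m59g_lead_mul (a b : ℕ) (x : ↥(m59g_Lam W' a)) (y : ↥(m59g_Lam W' b)) :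
    m59g_lead W' (a + b) ⟨(x : W'.CoordinateRing) * (y : W'.CoordinateRing),
      m59g_mul_mem W' a b x y x.2 y.2⟩ = m59g_lead W' a x * m59g_lead W' b y := by
  rw [m59g_lead_apply, m59g_lead_apply, m59g_lead_apply]
  show (m59g_Phi W' ((x : W'.CoordinateRing) * (y : W'.CoordinateRing))).coeff (a + b) = _
  rw [m59g_Phi_mul, coeff_add, m59g_corr_coeff W' x.2 y.2 (a + b) le_rfl, add_zero]
  exact coeff_mul_add_eq_of_natDegree_le
    (natDegree_le_of_degree_le ((m59g_mem_Lam W').1 x.2))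
    (natDegree_le_of_degree_le ((m59g_mem_Lam W').1 y.2))

/-! ### monomials -/

/-- the monomial of weight `w` (`0` for `w = 1`) -/
def m59g_mon (w : ℕ) : W'.CoordinateRing :=
  if 2 ∣ w then m59g_el W' (X ^ (w / 2)) 0 else
    if 3 ≤ w then m59g_el W' 0 (X ^ ((w - 3) / 2)) else 0

theorem m59g_Phi_mon (w : ℕ) (hw : w ≠ 1) : m59g_Phi W' (m59g_mon W' w) = X ^ w := by
  unfold m59g_mon
  split_ifs with h2 h3
  · obtain ⟨i, rfl⟩ := h2
    rw [m59g_Phi_el, Nat.mul_div_cancel_left i (by norm_num : 0 < 2)]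
    simp [pow_mul]
  · have : ∃ i, w = 2 * i + 3 := ⟨(w - 3) / 2, by omega⟩
    obtain ⟨i, rfl⟩ := this
    rw [m59g_Phi_el, Nat.add_sub_cancel, Nat.mul_div_cancel_left i (by norm_num : 0 < 2)]
    simp only [map_zero, zero_add, map_pow, expand_X]
    rw [pow_add, ← pow_mul]
    exact mul_comm _ _
  · exfalso; omega

theorem m59g_mon_mem (w : ℕ) (hw : w ≠ 1) : m59g_mon W' w ∈ m59g_Lam W' w := by
  rw [m59g_mem_Lam, m59g_Phi_mon W' w hw]
  exact degree_X_pow_le w

theorem m59g_lead_mon (w : ℕ) (hw : w ≠ 1) :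
    m59g_lead W' w ⟨m59g_mon W' w, m59g_mon_mem W' w hw⟩ = 1 := by
  rw [m59g_lead_apply]
  show (m59g_Phi W' (m59g_mon W' w)).coeff w = 1
  rw [m59g_Phi_mon W' w hw, coeff_X_pow_self]

theorem m59g_lead_surj (m : ℕ) (hm : 2 ≤ m) : Function.Surjective (m59g_lead W' m) := by
  intro o
  refine ⟨o • ⟨m59g_mon W' m, m59g_mon_mem W' m (by omega)⟩, ?_⟩
  rw [map_smul, m59g_lead_mon W' m (by omega), smul_eq_mul, mul_one]

/-- every element of `Λ m` is the combination of the monomials of weight `≤ m` with the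
coefficients of `Φ` -/
theorem m59g_eq_sum_mon {m : ℕ} {x : W'.CoordinateRing} (hx : x ∈ m59g_Lam W' m) :
    x = ∑ w ∈ Finset.range (m + 1), (m59g_Phi W' x).coeff w • m59g_mon W' w := by
  apply m59g_Phi_injective W'
  rw [map_sum]
  have h1 : ∀ w ∈ Finset.range (m + 1),
      m59g_Phi W' ((m59g_Phi W' x).coeff w • m59g_mon W' w) =
        C ((m59g_Phi W' x).coeff w) * X ^ w := by
    intro w _
    rw [map_smul, smul_eq_C_mul]
    by_cases hw : w = 1
    · rw [hw, m59g_coeff_Phi_one, C_0, zero_mul, zero_mul]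
    · rw [m59g_Phi_mon W' w hw]
  rw [Finset.sum_congr rfl h1]
  exact as_sum_range_C_mul_X_pow' _ (Nat.lt_succ_of_le
    (natDegree_le_of_degree_le ((m59g_mem_Lam W').1 hx)))


/-! ### saturation, finite generation, rank -/

theorem m59g_mon_one : m59g_mon W' 1 = 0 := by
  unfold m59g_mon
  rw [if_neg (by norm_num), if_neg (by norm_num)]

theorem m59g_sat [IsDomain O] {π : O} (hπ : π ≠ 0) (m : ℕ) (a : W'.CoordinateRing)
    (h : π • a ∈ m59g_Lam W' m) : a ∈ m59g_Lam W' m := by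
  rw [m59g_mem_Lam_iff_coeff] at h ⊢
  intro n hn
  have h1 := h n hn
  rw [map_smul, coeff_smul, smul_eq_mul] at h1
  exact (mul_eq_zero.1 h1).resolve_left hπ

theorem m59g_tf [IsDomain O] {π : O} (hπ : π ≠ 0) (a : W'.CoordinateRing) (h : π • a = 0) :
    a = 0 := by
  apply m59g_Phi_injective W'
  have h1 : π • m59g_Phi W' a = 0 := by rw [← map_smul, h, map_zero]
  rw [map_zero]
  exact (smul_eq_zero.1 h1).resolve_left hπ

theorem m59g_Lam_eq_span (m : ℕ) :
    m59g_Lam W' m = Submodule.span O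
      ((fun w => m59g_mon W' w) '' ((Finset.range (m + 1) : Finset ℕ) : Set ℕ)) := by
  apply le_antisymm
  · intro x hx
    rw [m59g_eq_sum_mon W' hx]
    refine Submodule.sum_mem _ fun w hw => Submodule.smul_mem _ _ (Submodule.subset_span ?_)
    exact ⟨w, hw, rfl⟩
  · rw [Submodule.span_le]
    rintro _ ⟨w, hw, rfl⟩
    show m59g_mon W' w ∈ m59g_Lam W' m
    by_cases h1 : w = 1
    · rw [h1, m59g_mon_one]; exact Submodule.zero_mem _
    · have hw' : w ≤ m := by
        have := Finset.mem_range.1 (Finset.mem_coe.1 hw); omega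
      exact m59g_Lam_mono W' hw' (m59g_mon_mem W' w h1)

theorem m59g_Lam_fg (m : ℕ) : (m59g_Lam W' m).FG := by
  rw [m59g_Lam_eq_span]
  exact Submodule.fg_span ((Finset.finite_toSet _).image _)

/-- the weights `0, 2, 3, …, m` -/
def m59g_idx (j : ℕ) : ℕ := if j = 0 then 0 else j + 1

/-- the coordinates of `Λ m` -/
def m59g_coords (m : ℕ) : ↥(m59g_Lam W' m) →ₗ[O] (Fin m → O) :=
  LinearMap.pi fun j => (lcoeff O (m59g_idx j)) ∘ₗ (m59g_Phi W') ∘ₗ (m59g_Lam W' m).subtype

theorem m59g_coords_apply (m : ℕ) (x : ↥(m59g_Lam W' m)) (j : Fin m) :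
    m59g_coords W' m x j = (m59g_Phi W' (x : W'.CoordinateRing)).coeff (m59g_idx j) := rfl

theorem m59g_coords_bijective (m : ℕ) (hm : 1 ≤ m) : Function.Bijective (m59g_coords W' m) := by
  constructor
  · rw [← LinearMap.ker_eq_bot, LinearMap.ker_eq_bot']
    intro x hx
    apply Subtype.ext
    apply m59g_Phi_injective W'
    rw [Submodule.coe_zero, map_zero]
    ext n
    rw [coeff_zero]
    by_cases h1 : n = 1
    · rw [h1]; exact m59g_coeff_Phi_one W' _
    by_cases h2 : m < n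
    · exact (m59g_mem_Lam_iff_coeff W').1 x.2 n h2
    · -- `n = idx j`
      have hj : ∃ j : Fin m, m59g_idx j = n := by
        by_cases h0 : n = 0
        · exact ⟨⟨0, by omega⟩, by simp [m59g_idx, h0]⟩
        · refine ⟨⟨n - 1, by omega⟩, ?_⟩
          simp only [m59g_idx]
          rw [if_neg (by omega)]
          omega
      obtain ⟨j, rfl⟩ := hj
      have := congrFun hx j
      rw [m59g_coords_apply] at this
      exact this
  · intro c
    have hmem : ∀ j : Fin m, m59g_mon W' (m59g_idx j) ∈ m59g_Lam W' m := by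
      intro j
      have h1 : m59g_idx j ≠ 1 := by
        simp only [m59g_idx]; split_ifs <;> omega
      have h2 : m59g_idx j ≤ m := by
        simp only [m59g_idx]; split_ifs <;> omega
      exact m59g_Lam_mono W' h2 (m59g_mon_mem W' _ h1)
    refine ⟨∑ j : Fin m, c j • ⟨m59g_mon W' (m59g_idx j), hmem j⟩, ?_⟩
    ext i
    rw [m59g_coords_apply]
    have h3 : ((∑ j : Fin m, c j • (⟨m59g_mon W' (m59g_idx j), hmem j⟩ : ↥(m59g_Lam W' m)) :
        ↥(m59g_Lam W' m)) : W'.CoordinateRing) = ∑ j : Fin m, c j • m59g_mon W' (m59g_idx j) := by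
      rw [Submodule.coe_sum]
      rfl
    rw [h3, map_sum, finsetSum_coeff]
    have h4 : ∀ j : Fin m, (m59g_Phi W' (c j • m59g_mon W' (m59g_idx j))).coeff (m59g_idx i) =
        if j = i then c j else 0 := by
      intro j
      have h1 : m59g_idx j ≠ 1 := by
        simp only [m59g_idx]; split_ifs <;> omega
      rw [map_smul, m59g_Phi_mon W' _ h1, coeff_smul, coeff_X_pow, smul_eq_mul]
      have h5 : (m59g_idx (i : ℕ) = m59g_idx (j : ℕ)) ↔ j = i := by
        constructor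
        · intro h
          apply Fin.ext
          simp only [m59g_idx] at h
          split_ifs at h <;> omega
        · intro h; rw [h]
      by_cases hji : j = i
      · rw [if_pos (h5.2 hji), if_pos hji, mul_one]
      · rw [if_neg (fun h => hji (h5.1 h)), if_neg hji, mul_zero]
    rw [Finset.sum_congr rfl (fun j _ => h4 j), Finset.sum_ite_eq' Finset.univ i c]
    simp

theorem m59g_finrank_Lam [Nontrivial O] (m : ℕ) (hm : 1 ≤ m) :
    Module.finrank O ↥(m59g_Lam W' m) = m := by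
  have e := LinearEquiv.ofBijective (m59g_coords W' m) (m59g_coords_bijective W' m hm)
  rw [e.finrank_eq, Module.finrank_fin_fun]

end

end Fermat.Agent.M59
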