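/-
M59 / block [G5] (helper29), prefix `m59g_`.  Cell (G5-flat)(P1e): the fibre `k ⊗[O] O[W] ≃ k[W_k]` of the
Weierstrass chart, compatibly with `Φ`, `Λ`, the monomials.
-/
import Mathlib
import Fermat.Agent.M59.G5.Flat.WFilt

set_option autoImplicit false
set_option linter.unusedSimpArgs false
set_option linter.unusedVariables false
set_option linter.style.haveILetI false

open Polynomial WeierstrassCurve WeierstrassCurve.Affine
open scoped Polynomial.Bivariate TensorProduct

namespace Fermat.Agent.M59

noncomputable section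

variable {O : Type} [CommRing O] {k : Type} [Field k] [Algebra O k] (W' : Affine O)

/-- the fibre curve -/
abbrev m59g_Wk : Affine k := W'.map (algebraMap O k)

theorem m59g_map_el (p q : O[X]) :
    CoordinateRing.map W' (algebraMap O k) (m59g_el W' p q) =
      m59g_el (m59g_Wk (k := k) W') (p.map (algebraMap O k)) (q.map (algebraMap O k)) := by
  unfold m59g_el
  rw [map_add, CoordinateRing.map_smul, CoordinateRing.map_smul, map_one, CoordinateRing.map_mk]
  simp

theorem m59g_Phi_map (x : W'.CoordinateRing) :
    m59g_Phi (m59g_Wk (k := k) W') (CoordinateRing.map W' (algebraMap O k) x) =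
      (m59g_Phi W' x).map (algebraMap O k) := by
  obtain ⟨p, q, rfl⟩ := m59g_el_surj W' x
  rw [m59g_map_el, m59g_Phi_el, m59g_Phi_el]
  simp [Polynomial.map_expand]

theorem m59g_map_mem_Lam {m : ℕ} {x : W'.CoordinateRing} (hx : x ∈ m59g_Lam W' m) :
    CoordinateRing.map W' (algebraMap O k) x ∈ m59g_Lam (m59g_Wk (k := k) W') m := by
  rw [m59g_mem_Lam_iff_coeff] at hx ⊢
  intro n hn
  rw [m59g_Phi_map, coeff_map, hx n hn, map_zero]

theorem m59g_map_mon (w : ℕ) :
    CoordinateRing.map W' (algebraMap O k) (m59g_mon W' w) = m59g_mon (m59g_Wk (k := k) W') w := by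
  unfold m59g_mon
  split_ifs
  · rw [m59g_map_el]; simp
  · rw [m59g_map_el]; simp
  · rw [map_zero]

example : Algebra O (m59g_Wk (k := k) W').CoordinateRing := inferInstance
example : IsScalarTower O k (m59g_Wk (k := k) W').CoordinateRing := inferInstance

/-- base change as an `O`-algebra map -/
def m59g_mapA : W'.CoordinateRing →ₐ[O] (m59g_Wk (k := k) W').CoordinateRing :=
  { CoordinateRing.map W' (algebraMap O k) with
    commutes' := fun o => by
      have h1 : algebraMap O W'.CoordinateRing o = CoordinateRing.mk W' (C (C o)) := rfl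
      have h2 : algebraMap O (m59g_Wk (k := k) W').CoordinateRing o =
          CoordinateRing.mk (m59g_Wk (k := k) W') (C (C (algebraMap O k o))) := rfl
      show CoordinateRing.map W' (algebraMap O k) (algebraMap O W'.CoordinateRing o) = _
      rw [h1, h2, CoordinateRing.map_mk]
      simp }

theorem m59g_mapA_apply (x : W'.CoordinateRing) :
    m59g_mapA (k := k) W' x = CoordinateRing.map W' (algebraMap O k) x := rfl

/-- the comparison map -/
def m59g_psi : k ⊗[O] W'.CoordinateRing →ₐ[k] (m59g_Wk (k := k) W').CoordinateRing :=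
  Algebra.TensorProduct.lift (Algebra.ofId k _) (m59g_mapA (k := k) W') fun _ _ => Commute.all _ _

theorem m59g_psi_tmul (c : k) (x : W'.CoordinateRing) :
    m59g_psi (k := k) W' (c ⊗ₜ x) = c • CoordinateRing.map W' (algebraMap O k) x := by
  rw [m59g_psi, Algebra.TensorProduct.lift_tmul, Algebra.ofId_apply, m59g_mapA_apply,
    Algebra.smul_def]

/-- the monomial bases -/
def m59g_bO : Module.Basis (ℕ × Fin 2) O W'.CoordinateRing :=
  (Polynomial.basisMonomials O).smulTower (CoordinateRing.basis W')

theorem m59g_map_bO (ij : ℕ × Fin 2) :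
    CoordinateRing.map W' (algebraMap O k) (m59g_bO W' ij) = m59g_bO (m59g_Wk (k := k) W') ij := by
  obtain ⟨i, j⟩ := ij
  simp only [m59g_bO, Module.Basis.smulTower_apply, coe_basisMonomials]
  rw [CoordinateRing.map_smul]
  congr 1
  · simp
  · fin_cases j
    · simp
    · simp only [Fin.mk_one, CoordinateRing.basis_one, CoordinateRing.map_mk, Polynomial.map_X]

theorem m59g_psi_bijective : Function.Bijective (m59g_psi (k := k) W') := by
  let e := (Algebra.TensorProduct.basis k (m59g_bO W')).equiv (m59g_bO (m59g_Wk (k := k) W'))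
    (Equiv.refl _)
  have h : (m59g_psi (k := k) W').toLinearMap = e.toLinearMap := by
    refine (Algebra.TensorProduct.basis k (m59g_bO W')).ext fun ij => ?_
    rw [LinearEquiv.coe_coe, Module.Basis.equiv_apply, Equiv.refl_apply, AlgHom.toLinearMap_apply,
      Algebra.TensorProduct.basis_apply, m59g_psi_tmul, one_smul, m59g_map_bO]
  have h2 : ⇑(m59g_psi (k := k) W') = ⇑e := by
    ext x
    exact LinearMap.congr_fun h x
  rw [h2]
  exact e.bijective

/-- the fibre isomorphism -/
def m59g_fibreEquiv : (k ⊗[O] W'.CoordinateRing) ≃ₐ[k] (m59g_Wk (k := k) W').CoordinateRing :=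
  AlgEquiv.ofBijective (m59g_psi (k := k) W') (m59g_psi_bijective W')

theorem m59g_fibreEquiv_tmul (c : k) (x : W'.CoordinateRing) :
    m59g_fibreEquiv (k := k) W' (c ⊗ₜ x) = c • CoordinateRing.map W' (algebraMap O k) x :=
  m59g_psi_tmul W' c x

end

end Fermat.Agent.M59
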