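/-
M59 / block [G5] (helper29), prefix `m59g_`.  Cell (G5-flat)(P1c): over a field, the weight
`natDegree (Φ f)` equals the degree of the norm, hence `dim B/(f)`, and is additive.
-/
import Mathlib
import Fermat.Agent.M59.G5.Flat.WFilt
import Fermat.Agent.M59.G5.Flat.Dedekind

set_option autoImplicit false
set_option linter.unusedSimpArgs false
set_option linter.unusedVariables false

open Polynomial WeierstrassCurve WeierstrassCurve.Affine
open scoped Polynomial.Bivariate

namespace Fermat.Agent.M59

noncomputable section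

variable {k : Type} [Field k] (W : Affine k)

theorem m59g_two_deg_le (p : k[X]) (N : ℕ) :
    2 • p.degree ≤ (N : WithBot ℕ) ↔ ∀ i : ℕ, N < 2 * i → p.coeff i = 0 := by
  by_cases hp : p = 0
  · subst hp
    simp [two_nsmul]
  · rw [degree_eq_natDegree hp, two_nsmul, ← Nat.cast_add, Nat.cast_le]
    constructor
    · intro h i hi
      exact coeff_eq_zero_of_natDegree_lt (by omega)
    · intro h
      by_contra hlt
      push Not at hlt
      have := h p.natDegree (by omega)
      exact hp (leadingCoeff_eq_zero.1 this)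

theorem m59g_two_deg_add_le (q : k[X]) (N : ℕ) :
    2 • q.degree + 3 ≤ (N : WithBot ℕ) ↔ ∀ i : ℕ, N < 2 * i + 3 → q.coeff i = 0 := by
  by_cases hq : q = 0
  · subst hq
    simp [two_nsmul]
  · rw [degree_eq_natDegree hq, two_nsmul, ← Nat.cast_add]
    have h3 : ((q.natDegree + q.natDegree : ℕ) : WithBot ℕ) + 3 =
        ((q.natDegree + q.natDegree + 3 : ℕ) : WithBot ℕ) := by norm_cast
    rw [h3, Nat.cast_le]
    constructor
    · intro h i hi
      exact coeff_eq_zero_of_natDegree_lt (by omega)
    · intro h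
      by_contra hlt
      push Not at hlt
      have := h q.natDegree (by omega)
      exact hq (leadingCoeff_eq_zero.1 this)

theorem m59g_degree_Phi_le (p q : k[X]) (N : ℕ) :
    (m59g_Phi W (m59g_el W p q)).degree ≤ (N : WithBot ℕ) ↔
      max (2 • p.degree) (2 • q.degree + 3) ≤ (N : WithBot ℕ) := by
  rw [max_le_iff, m59g_two_deg_le, m59g_two_deg_add_le, degree_le_iff_coeff_zero]
  constructor
  · intro h
    refine ⟨fun i hi => ?_, fun i hi => ?_⟩
    · rw [← m59g_coeff_Phi_even W p q i]
      exact h _ (by exact_mod_cast hi)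
    · rw [← m59g_coeff_Phi_odd W p q i]
      exact h _ (by exact_mod_cast hi)
  · rintro ⟨h1, h2⟩ n hn
    have hn' : N < n := by exact_mod_cast hn
    rw [m59g_coeff_Phi_el]
    have e1 : (if 2 ∣ n then p.coeff (n / 2) else 0) = 0 := by
      split_ifs with h
      · obtain ⟨i, rfl⟩ := h
        rw [Nat.mul_div_cancel_left i (by norm_num : 0 < 2)]
        exact h1 i hn'
      · rfl
    have e2 : (if 3 ≤ n then (if 2 ∣ n - 3 then q.coeff ((n - 3) / 2) else 0) else 0) = 0 := by
      split_ifs with h3 h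
      · obtain ⟨i, hi⟩ := h
        rw [hi, Nat.mul_div_cancel_left i (by norm_num : 0 < 2)]
        exact h2 i (by omega)
      · rfl
      · rfl
    rw [e1, e2, add_zero]

/-- the weight is the degree of the norm -/
theorem m59g_natDegree_Phi_eq_norm (x : W.CoordinateRing) :
    (m59g_Phi W x).natDegree = (Algebra.norm k[X] x).natDegree := by
  obtain ⟨p, q, rfl⟩ := m59g_el_surj W x
  have key : ∀ N : ℕ, (m59g_Phi W (m59g_el W p q)).natDegree ≤ N ↔
      (Algebra.norm k[X] (m59g_el W p q)).natDegree ≤ N := by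
    intro N
    rw [natDegree_le_iff_degree_le, natDegree_le_iff_degree_le, m59g_degree_Phi_le]
    unfold m59g_el
    rw [CoordinateRing.degree_norm_smul_basis]
  exact le_antisymm ((key _).2 le_rfl) ((key _).1 le_rfl)

/-- the weight -/
def m59g_wt (x : W.CoordinateRing) : ℕ := (m59g_Phi W x).natDegree

theorem m59g_wt_mul {x y : W.CoordinateRing} (hx : x ≠ 0) (hy : y ≠ 0) :
    m59g_wt W (x * y) = m59g_wt W x + m59g_wt W y := by
  unfold m59g_wt
  rw [m59g_natDegree_Phi_eq_norm, m59g_natDegree_Phi_eq_norm, m59g_natDegree_Phi_eq_norm, map_mul,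
    natDegree_mul]
  · exact (Algebra.norm_ne_zero_iff (R := k[X])).2 hx
  · exact (Algebra.norm_ne_zero_iff (R := k[X])).2 hy

theorem m59g_finrank_quot {f : W.CoordinateRing} (hf : f ≠ 0) :
    Module.finrank k (W.CoordinateRing ⧸ Ideal.span ({f} : Set W.CoordinateRing)) =
      m59g_wt W f := by
  rw [m59g_wt, m59g_natDegree_Phi_eq_norm]
  exact finrank_quotient_span_eq_natDegree_norm (CoordinateRing.basis W) hf

theorem m59g_wt_ne_one (x : W.CoordinateRing) : m59g_wt W x ≠ 1 := by
  intro h
  have h1 : (m59g_Phi W x).leadingCoeff = 0 := by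
    rw [leadingCoeff, show (m59g_Phi W x).natDegree = 1 from h, m59g_coeff_Phi_one]
  have h2 : m59g_Phi W x = 0 := leadingCoeff_eq_zero.1 h1
  rw [m59g_wt, h2, natDegree_zero] at h
  exact zero_ne_one h

theorem m59g_mem_Lam_iff_wt {m : ℕ} {x : W.CoordinateRing} :
    x ∈ m59g_Lam W m ↔ m59g_wt W x ≤ m := by
  rw [m59g_mem_Lam, m59g_wt, natDegree_le_iff_degree_le]

end

end Fermat.Agent.M59
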