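/-
M59 / block [G5] (helper29), prefix `m59g_`.  Cell (G5-flat)(P1d): Riemann's theorem with `c0 = 1` on a
Weierstrass chart over a field: `Λ m → B ⧸ I` is onto as soon as `dim (B ⧸ I) + 1 ≤ m`.
-/
import Mathlib
import Fermat.Agent.M59.G5.Flat.WWeight

set_option autoImplicit false
set_option linter.unusedSimpArgs false
set_option linter.unusedVariables false
set_option linter.style.haveILetI false

open Polynomial WeierstrassCurve WeierstrassCurve.Affine
open scoped Polynomial.Bivariate

namespace Fermat.Agent.M59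

noncomputable section

variable {k : Type} [Field k] (W : Affine k)

theorem m59g_finite_quot {f : W.CoordinateRing} (hf : f ≠ 0) :
    Module.Finite k (W.CoordinateRing ⧸ Ideal.span ({f} : Set W.CoordinateRing)) := by
  have hI : Ideal.span ({f} : Set W.CoordinateRing) ≠ ⊥ := by
    rwa [Ne, Ideal.span_singleton_eq_bot]
  exact Module.Finite.equiv (Ideal.quotientEquivDirectSum k (CoordinateRing.basis W) hI).symm

variable (I : Ideal W.CoordinateRing)

/-- a nonzero element of `I` has weight at least the colength of `I` -/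
theorem m59g_le_wt [Module.Finite k (W.CoordinateRing ⧸ I)] {f : W.CoordinateRing} (hfI : f ∈ I)
    (hf : f ≠ 0) : Module.finrank k (W.CoordinateRing ⧸ I) ≤ m59g_wt W f := by
  have hle : Ideal.span ({f} : Set W.CoordinateRing) ≤ I := (Ideal.span_singleton_le_iff_mem I).2 hfI
  haveI := m59g_finite_quot W hf
  rw [← m59g_finrank_quot W hf]
  exact LinearMap.finrank_le_finrank_of_surjective
    (f := (Ideal.Quotient.factorₐ k hle).toLinearMap) (Ideal.Quotient.factor_surjective hle)

/-- if a nonzero element of `I` has weight exactly the colength, it generates `I` -/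
theorem m59g_eq_span_of_wt [Module.Finite k (W.CoordinateRing ⧸ I)] {f : W.CoordinateRing}
    (hfI : f ∈ I) (hf : f ≠ 0) (hw : m59g_wt W f = Module.finrank k (W.CoordinateRing ⧸ I)) :
    I = Ideal.span ({f} : Set W.CoordinateRing) := by
  have hle : Ideal.span ({f} : Set W.CoordinateRing) ≤ I := (Ideal.span_singleton_le_iff_mem I).2 hfI
  haveI := m59g_finite_quot W hf
  have hfr : Module.finrank k (W.CoordinateRing ⧸ Ideal.span ({f} : Set W.CoordinateRing)) =
      Module.finrank k (W.CoordinateRing ⧸ I) := by rw [m59g_finrank_quot W hf, hw]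
  have hinj : Function.Injective (Ideal.Quotient.factorₐ k hle).toLinearMap :=
    (LinearMap.injective_iff_surjective_of_finrank_eq_finrank hfr).2
      (Ideal.Quotient.factor_surjective hle)
  refine le_antisymm (fun x hx => ?_) hle
  have h1 : (Ideal.Quotient.factorₐ k hle).toLinearMap
      (Ideal.Quotient.mk (Ideal.span ({f} : Set W.CoordinateRing)) x) = 0 := by
    show Ideal.Quotient.factor hle (Ideal.Quotient.mk _ x) = 0
    rw [Ideal.Quotient.factor_mk, Ideal.Quotient.eq_zero_iff_mem]
    exact hx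
  have h2 := hinj (h1.trans (map_zero _).symm)
  exact Ideal.Quotient.eq_zero_iff_mem.1 h2

/-- the set of possible weights -/
theorem m59g_exists_weights [Module.Finite k (W.CoordinateRing ⧸ I)] (m : ℕ)
    (hm : Module.finrank k (W.CoordinateRing ⧸ I) + 1 ≤ m) :
    ∃ S : Finset ℕ, S.card ≤ m - Module.finrank k (W.CoordinateRing ⧸ I) ∧
      ∀ f : W.CoordinateRing, f ∈ I → f ≠ 0 → f ∈ m59g_Lam W m → m59g_wt W f ∈ S := by
  set d := Module.finrank k (W.CoordinateRing ⧸ I) with hd
  by_cases hB : ∃ f₀ : W.CoordinateRing, f₀ ∈ I ∧ f₀ ≠ 0 ∧ m59g_wt W f₀ = d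
  · obtain ⟨f₀, hf₀I, hf₀, hw₀⟩ := hB
    have hIeq := m59g_eq_span_of_wt W I hf₀I hf₀ hw₀
    refine ⟨(Finset.Icc d m).erase (d + 1), ?_, ?_⟩
    · rw [Finset.card_erase_of_mem (Finset.mem_Icc.2 ⟨by omega, hm⟩), Nat.card_Icc]
      omega
    · intro f hfI hf hfm
      rw [Finset.mem_erase, Finset.mem_Icc]
      refine ⟨?_, m59g_le_wt W I hfI hf, (m59g_mem_Lam_iff_wt W).1 hfm⟩
      rw [hIeq] at hfI
      obtain ⟨g, hg⟩ := Ideal.mem_span_singleton'.1 hfI
      have hg0 : g ≠ 0 := by
        rintro rfl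
        rw [zero_mul] at hg
        exact hf hg.symm
      rw [← hg, m59g_wt_mul W hg0 hf₀, hw₀]
      have := m59g_wt_ne_one W g
      omega
  · push Not at hB
    refine ⟨Finset.Icc (d + 1) m, ?_, ?_⟩
    · rw [Nat.card_Icc]
      omega
    · intro f hfI hf hfm
      rw [Finset.mem_Icc]
      have h1 := m59g_le_wt W I hfI hf
      have h2 := hB f hfI hf
      have h3 := (m59g_mem_Lam_iff_wt W).1 hfm
      exact ⟨by omega, h3⟩

/-- **Riemann with `c0 = 1`** -/
theorem m59g_riemann_field [Module.Finite k (W.CoordinateRing ⧸ I)] (m : ℕ)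
    (hm : Module.finrank k (W.CoordinateRing ⧸ I) + 1 ≤ m) (b : W.CoordinateRing) :
    ∃ l ∈ m59g_Lam W m, b - l ∈ I := by
  set d := Module.finrank k (W.CoordinateRing ⧸ I) with hd
  obtain ⟨S, hScard, hS⟩ := m59g_exists_weights W I m hm
  haveI hfinL : Module.Finite k ↥(m59g_Lam W m) := Module.Finite.iff_fg.2 (m59g_Lam_fg W m)
  let ψ : ↥(m59g_Lam W m) →ₗ[k] W.CoordinateRing ⧸ I :=
    (Ideal.Quotient.mkₐ k I).toLinearMap ∘ₗ (m59g_Lam W m).subtype
  have hψ : ∀ x : ↥(m59g_Lam W m), ψ x = Ideal.Quotient.mk I (x : W.CoordinateRing) := fun x => rfl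
  -- the kernel injects into `S → k`
  let χ : ↥(LinearMap.ker ψ) →ₗ[k] (↥S → k) :=
    LinearMap.pi fun s => (lcoeff k (s : ℕ)) ∘ₗ (m59g_Phi W) ∘ₗ (m59g_Lam W m).subtype ∘ₗ
      (LinearMap.ker ψ).subtype
  have hχ : Function.Injective χ := by
    rw [injective_iff_map_eq_zero]
    intro x hx
    by_contra hx0
    have hxB : ((x : ↥(m59g_Lam W m)) : W.CoordinateRing) ≠ 0 := by
      intro h
      apply hx0
      apply Subtype.ext
      apply Subtype.ext
      exact h
    have hxI : ((x : ↥(m59g_Lam W m)) : W.CoordinateRing) ∈ I := by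
      have := x.2
      rw [LinearMap.mem_ker, hψ, Ideal.Quotient.eq_zero_iff_mem] at this
      exact this
    have hwS := hS _ hxI hxB (x : ↥(m59g_Lam W m)).2
    have h1 := congrFun hx ⟨_, hwS⟩
    have h2 : (m59g_Phi W ((x : ↥(m59g_Lam W m)) : W.CoordinateRing)).leadingCoeff = 0 := h1
    rw [leadingCoeff_eq_zero] at h2
    exact hxB (m59g_Phi_injective W (h2.trans (map_zero _).symm))
  have hker : Module.finrank k ↥(LinearMap.ker ψ) ≤ m - d := by
    have := LinearMap.finrank_le_finrank_of_injective hχ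
    rw [Module.finrank_fintype_fun_eq_card, Fintype.card_coe] at this
    exact this.trans hScard
  have hrn := LinearMap.finrank_range_add_finrank_ker ψ
  rw [m59g_finrank_Lam W m (by omega)] at hrn
  have hrange : Module.finrank k ↥(LinearMap.range ψ) = d := by
    have h1 : Module.finrank k ↥(LinearMap.range ψ) ≤ d := Submodule.finrank_le _
    omega
  have htop : LinearMap.range ψ = ⊤ := Submodule.eq_top_of_finrank_eq hrange
  have hb : Ideal.Quotient.mk I b ∈ LinearMap.range ψ := htop ▸ Submodule.mem_top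
  obtain ⟨l, hl⟩ := hb
  refine ⟨l, l.2, ?_⟩
  rw [← Ideal.Quotient.eq_zero_iff_mem, map_sub, ← hψ l, hl, sub_self]

end

end Fermat.Agent.M59
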