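/-
M59 / block [G5] (helper29), prefix `m59g_`.  Cell (G5-flat)(P1): THE PACKAGE `ff_IsPkg` of the Weierstrass
chart `𝒜 = O[x,y]/(W)` over a discrete valuation ring `O` with `Δ ∈ Oˣ` (good reduction),
`(g, n, m0, c0) = (1, 1, 2, 1)`, `C = O`.
-/
import Mathlib
import Fermat.Agent.FF.SeamsGeom
import Fermat.Agent.M59.G5.Flat.WFilt
import Fermat.Agent.M59.G5.Flat.WWeight
import Fermat.Agent.M59.G5.Flat.WRiemann
import Fermat.Agent.M59.G5.Flat.WFibre
import Fermat.Agent.M59.G5.Flat.Dedekind

set_option autoImplicit false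
set_option linter.unusedSimpArgs false
set_option linter.unusedVariables false
set_option linter.style.haveILetI false

open Polynomial WeierstrassCurve WeierstrassCurve.Affine Fermat.Agent.FF
open scoped Polynomial.Bivariate TensorProduct

namespace Fermat.Agent.M59

noncomputable section

theorem m59g_isDedekindDomain_of_ringEquiv {R S : Type*} [CommRing R] [CommRing S]
    [IsDedekindDomain S] (e : R ≃+* S) : IsDedekindDomain R := by
  have : IsDomain R := e.toMulEquiv.isDomain
  have : IsNoetherianRing R := isNoetherianRing_of_ringEquiv S e.symm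
  have : Ring.DimensionLEOne R := Ring.DimensionLEOne.of_ringEquiv e
  have : IsIntegrallyClosed R := IsIntegrallyClosed.of_equiv e.symm
  exact { }

section Fibre

variable {O : Type} [CommRing O] {k : Type} [Field k] [Algebra O k] (W' : Affine O)

theorem m59g_fibre_isDedekind [IsAlgClosed k] (hΔ : IsUnit W'.Δ) :
    IsDedekindDomain (k ⊗[O] W'.CoordinateRing) := by
  have hΔk : (m59g_Wk (k := k) W').Δ ≠ 0 := by
    rw [m59g_Wk, WeierstrassCurve.map_Δ]
    exact (hΔ.map (algebraMap O k)).ne_zero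
  haveI := m59g_coordRing_isDedekindDomain (m59g_Wk (k := k) W') hΔk
  exact m59g_isDedekindDomain_of_ringEquiv (m59g_fibreEquiv (k := k) W').toRingEquiv

theorem m59g_coordRing_not_isField (W : Affine k) : ¬ IsField W.CoordinateRing := by
  intro h
  haveI : Algebra.IsIntegral k[X] W.CoordinateRing := Algebra.IsIntegral.of_finite _ _
  have hinj : Function.Injective (algebraMap k[X] W.CoordinateRing) :=
    FaithfulSMul.algebraMap_injective k[X] W.CoordinateRing
  exact Polynomial.not_isField k (isField_of_isIntegral_of_isField hinj h)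

theorem m59g_fibre_not_isField : ¬ IsField (k ⊗[O] W'.CoordinateRing) := by
  intro h
  exact m59g_coordRing_not_isField (m59g_Wk (k := k) W')
    (MulEquiv.isField h (m59g_fibreEquiv (k := k) W').symm.toMulEquiv)

/-- the image of `k ⊗ Λ m` in the fibre ring contains `Λ_k m` -/
theorem m59g_incl_range (m : ℕ) (l : (m59g_Wk (k := k) W').CoordinateRing)
    (hl : l ∈ m59g_Lam (m59g_Wk (k := k) W') m) :
    ∃ u : k ⊗[O] ↥(m59g_Lam W' m),
      m59g_fibreEquiv (k := k) W' (ff_incl O W'.CoordinateRing k (m59g_Lam W') m u) = l := by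
  let Θ : k ⊗[O] ↥(m59g_Lam W' m) →ₗ[k] (m59g_Wk (k := k) W').CoordinateRing :=
    (m59g_fibreEquiv (k := k) W').toLinearMap ∘ₗ ff_incl O W'.CoordinateRing k (m59g_Lam W') m
  have hΘ : ∀ (c : k) (x : ↥(m59g_Lam W' m)),
      Θ (c ⊗ₜ x) = c • CoordinateRing.map W' (algebraMap O k) (x : W'.CoordinateRing) := by
    intro c x
    show m59g_fibreEquiv (k := k) W' (ff_incl O W'.CoordinateRing k (m59g_Lam W') m (c ⊗ₜ x)) = _
    rw [ff_incl, LinearMap.baseChange_tmul, Submodule.subtype_apply, m59g_fibreEquiv_tmul]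
  have hle : m59g_Lam (m59g_Wk (k := k) W') m ≤ LinearMap.range Θ := by
    rw [m59g_Lam_eq_span, Submodule.span_le]
    rintro _ ⟨w, hw, rfl⟩
    show m59g_mon (m59g_Wk (k := k) W') w ∈ LinearMap.range Θ
    by_cases h1 : w = 1
    · rw [h1, m59g_mon_one]; exact Submodule.zero_mem _
    · have hw' : w ≤ m := by
        have := Finset.mem_range.1 (Finset.mem_coe.1 hw); omega
      refine ⟨(1 : k) ⊗ₜ ⟨m59g_mon W' w, m59g_Lam_mono W' hw' (m59g_mon_mem W' w h1)⟩, ?_⟩
      rw [hΘ, one_smul, m59g_map_mon]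
  obtain ⟨u, hu⟩ := hle hl
  exact ⟨u, hu⟩

/-- **Riemann on the fibre**, in the form of `ff_IsPkg.riemann` -/
theorem m59g_fibre_riemann (I : Ideal (k ⊗[O] W'.CoordinateRing)) (m : ℕ)
    (hfin : Module.Finite k ((k ⊗[O] W'.CoordinateRing) ⧸ I))
    (hm : Module.finrank k ((k ⊗[O] W'.CoordinateRing) ⧸ I) + 1 ≤ m) :
    Function.Surjective fun u : k ⊗[O] ↥(m59g_Lam W' m) =>
      Ideal.Quotient.mk I (ff_incl O W'.CoordinateRing k (m59g_Lam W') m u) := by
  let e := m59g_fibreEquiv (k := k) W'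
  let I' : Ideal (m59g_Wk (k := k) W').CoordinateRing := I.map (e : _ →+* _)
  let q : ((k ⊗[O] W'.CoordinateRing) ⧸ I) ≃ₐ[k] ((m59g_Wk (k := k) W').CoordinateRing ⧸ I') :=
    Ideal.quotientEquivAlg I I' e rfl
  haveI : Module.Finite k ((m59g_Wk (k := k) W').CoordinateRing ⧸ I') :=
    Module.Finite.equiv q.toLinearEquiv
  have hfr : Module.finrank k ((m59g_Wk (k := k) W').CoordinateRing ⧸ I') =
      Module.finrank k ((k ⊗[O] W'.CoordinateRing) ⧸ I) := q.toLinearEquiv.finrank_eq.symm
  intro t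
  obtain ⟨t, rfl⟩ := Ideal.Quotient.mk_surjective t
  obtain ⟨l, hl, hlI⟩ := m59g_riemann_field (m59g_Wk (k := k) W') I' m (by rw [hfr]; exact hm) (e t)
  obtain ⟨u, hu⟩ := m59g_incl_range W' m l hl
  refine ⟨u, ?_⟩
  show Ideal.Quotient.mk I (ff_incl O W'.CoordinateRing k (m59g_Lam W') m u) = Ideal.Quotient.mk I t
  rw [eq_comm, Ideal.Quotient.eq]
  have h1 : e (t - ff_incl O W'.CoordinateRing k (m59g_Lam W') m u) ∈ I' := by
    rw [map_sub, hu]; exact hlI
  obtain ⟨x, hxI, hx⟩ := (Ideal.mem_map_of_equiv e _).1 h1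
  rw [← e.injective hx]
  exact hxI

end Fibre

/-- **THE PACKAGE of the Weierstrass chart.** -/
theorem m59g_isPkg (O : Type) [CommRing O] [IsDomain O] (W' : Affine O) (hΔ : IsUnit W'.Δ) (π : O)
    (hπ : Irreducible π)
    (Kb : Type) [Field Kb] [IsAlgClosed Kb] [Algebra O Kb]
    (κ : Type) [Field κ] [IsAlgClosed κ] [Algebra O κ]
    (hsurj : Function.Surjective (algebraMap O κ))
    (hker : RingHom.ker (algebraMap O κ) = Ideal.span {π})
    (hinj : Function.Injective (algebraMap O Kb)) [IsNoetherianRing O] :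
    ff_IsPkg O W'.CoordinateRing O π Kb κ (m59g_Lam W') (m59g_lead W') 1 1 2 1 where
  irr := hπ
  res_surj := hsurj
  res_ker := hker
  inj := hinj
  ft := by
    haveI : Algebra.FiniteType O[X] W'.CoordinateRing := inferInstance
    exact Algebra.FiniteType.trans (S := O[X]) inferInstance inferInstance
  tf := m59g_tf W' hπ.ne_zero
  dedκ := m59g_fibre_isDedekind W' hΔ
  notFieldκ := m59g_fibre_not_isField W'
  dedK := m59g_fibre_isDedekind W' hΔ
  mono := m59g_Lam_mono W'
  exh := m59g_Lam_exh W'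
  one_mem := m59g_one_mem W'
  zero_const := m59g_zero_const W'
  mul_mem := m59g_mul_mem W'
  fg := m59g_Lam_fg W'
  sat := m59g_sat W' hπ.ne_zero
  Cfin := inferInstance
  Cfree := inferInstance
  Crank := Module.finrank_self O
  lead_ker := m59g_lead_ker W'
  lead_zero := m59g_lead_zero W'
  lead_one := m59g_lead_one W'
  lead_mul := m59g_lead_mul W'
  lead_surj := m59g_lead_surj W'
  rank := fun m hm => by rw [m59g_finrank_Lam W' m (by omega), mul_one]
  riemann := fun I m hfin hm0 hm => m59g_fibre_riemann W' I m hfin (by rwa [mul_one] at hm)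

end

end Fermat.Agent.M59
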