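import Fermat.Agent.M59.G5.Flat.WLocal
import Fermat.Agent.M59.G5.Flat.WInstAbs
import Fermat.Agent.M59.G5.Flat.WPkg
import Fermat.Agent.FF.Inst.Pkg.Assembly
import Fermat.Agent.S58.Mult.Fix
import Fermat.Agent.S58.Mult.Inertia
import Fermat.Agent.S58.Tate

/-!
M59 / block [G5] (helper29), prefix `m59g_`.  Cell (G5-flat)(F1), THE CONCRETE INSTANCE:
`m59g_locOrd : m59g_LocOrd_stmt`.

`W / ℤ` with good reduction at the odd prime `p`, `A` a place of `ℚ̄` over `p`, `L₁ = ℚ̄^{I_A}`,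
`O = A ∩ L₁`, `W' = W_O`, `M = W(ℚ̄)[pⁿ]`, `P₀` a point of prime order `ℓ ≠ p` (unramified, with
integral coordinates, and `z + P₀` never reduces to the origin); the abstract instance
`m59g_inst_abs'` + the abstract assembly `m59g_local_of_inst`.
-/

set_option autoImplicit false
set_option linter.unusedSectionVars false
set_option linter.unusedVariables false
set_option linter.style.haveILetI false

open Polynomial WeierstrassCurve WeierstrassCurve.Affine IsLocalRing Fermat.Agent.FF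
  Fermat.Agent.S58 Fermat.Agent.S05 Fermat.Agent.MZ
open scoped Polynomial.Bivariate TensorProduct

namespace Fermat.Agent.M59

noncomputable section

/-! ### `W(ℚ̄)[pⁿ]` is finite with open stabilisers -/

theorem m59g_Tn_finite (W : WeierstrassCurve ℤ) (hΔ : W.Δ ≠ 0) (p : ℕ) [Fact p.Prime]
    (hp2 : p ≠ 2) (n : ℕ) : Finite (m59g_Tn W p n) := by
  have hcard := s58t_card W hΔ p hp2 n
  have hfin : Finite {x : s58_E W // p ^ n • x = 0} :=
    Nat.finite_of_card_ne_zero (by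
      rw [hcard]; exact pow_ne_zero _ (Fact.out : p.Prime).pos.ne')
  refine Finite.of_injective
    (fun x : m59g_Tn W p n => (⟨(x : s58_E W), by
      have hx := x.2
      rw [Submodule.mem_torsionBy_iff] at hx
      have h1 : ∀ Q : s58_E W, ((p : ℤ) ^ n) • Q = (p ^ n : ℕ) • Q := fun Q => by
        rw [← Nat.cast_pow, natCast_zsmul]
      rw [← h1]; exact hx⟩ : {x : s58_E W // p ^ n • x = 0})) ?_
  intro x y hxy
  exact Subtype.ext (congrArg Subtype.val hxy)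

theorem m59g_Tn_open (W : WeierstrassCurve ℤ) (p n : ℕ) (x : m59g_Tn W p n) :
    ∃ K : IntermediateField ℚ ff_Qb, FiniteDimensional ℚ K ∧
      ∀ σ ∈ K.fixingSubgroup, σ • x = x := by
  obtain ⟨L, hL, hfix⟩ := s58t_fixed W (x : s58_E W)
  refine ⟨L, hL, fun σ hσ => Subtype.ext ?_⟩
  rw [m59g_coe_smul_Tn]
  exact hfix σ (fun y hy => hσ ⟨y, hy⟩)

/-! ### small lemmas -/

theorem m59g_esymm_map {R S : Type*} [CommSemiring R] [CommSemiring S] (f : R →+* S)
    (s : Multiset R) (i : ℕ) : f (s.esymm i) = (s.map f).esymm i := by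
  rw [Multiset.esymm, Multiset.esymm, map_multiset_sum, Multiset.map_map,
    Multiset.powersetCard_map, Multiset.map_map]
  congr 1
  refine Multiset.map_congr rfl fun t _ => ?_
  simp only [Function.comp_apply]
  rw [map_multiset_prod]

theorem m59g_symFun_one {O 𝒜 Kb M : Type} [CommRing O] [CommRing 𝒜] [Algebra O 𝒜] [Field Kb]
    [Algebra O Kb] (PK : M → Fin 1 → 𝒜 →ₐ[O] Kb) (a : 𝒜) (z : M) :
    ff_symFun PK a 1 z = PK z 0 a := by
  unfold ff_symFun
  simp [Multiset.esymm, Multiset.powersetCard_one]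

theorem m59g_some_congr {F : Type*} [Field F] {W : Affine F} {u v a b : F} (hu : u = a)
    (hv : v = b) (huv : W.Nonsingular u v) (hab : W.Nonsingular a b) :
    Point.some u v huv = Point.some a b hab := by
  subst hu hv
  rfl

/-! ### the instance over a generic level -/

set_option maxHeartbeats 1600000 in
theorem m59g_locOrd_of_level (W : WeierstrassCurve ℤ) (hΔ : W.Δ ≠ 0) (p : ℕ) [Fact p.Prime]
    (hp2 : p ≠ 2) (hgood : ¬ (p : ℤ) ∣ W.Δ) (n : ℕ)
    (A : ValuationSubring ff_Qb) (hA : A.LiesOverPrime p)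
    (L : Type) [Field L] [Algebra ℚ L] [Algebra L ff_Qb] [IsScalarTower ℚ L ff_Qb]
    (lvl : ffi_LvlOK A L p) :
    ∃ H₁ : Subring (m59g_Tn W p n → ff_Qb),
      m59g_IsLocOrd A (IsScalarTower.toAlgHom ℚ L ff_Qb).fieldRange (m59g_Tn W p n) H₁ := by
  classical
  have hpp : p.Prime := Fact.out
  letI algκ : Algebra ↥(ffi_O A L) (ResidueField ↥A) := ffi_algOκ A L
  haveI := lvl.algClosed
  haveI := lvl.dvr
  haveI := m59g_Tn_finite W hΔ p hp2 n
  let ι : ↥(ffi_O A L) →+* ↥A := ffi_OtoA A L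
  have hιK : ∀ o : ↥(ffi_O A L), algebraMap ↥(ffi_O A L) ff_Qb o = ((ι o : ↥A) : ff_Qb) :=
    fun o => rfl
  have hικ : ∀ o : ↥(ffi_O A L), algebraMap ↥(ffi_O A L) (ResidueField ↥A) o = residue ↥A (ι o) :=
    fun o => rfl
  let W' : Affine ↥(ffi_O A L) := W.map (Int.castRingHom ↥(ffi_O A L))
  have hWK : m59g_Wk (k := ff_Qb) W' = (s58_WQ W)⁄s58_Qb := by
    show (W.map (Int.castRingHom ↥(ffi_O A L))).map (algebraMap ↥(ffi_O A L) ff_Qb) =
      (W.map (Int.castRingHom ℚ)).map (algebraMap ℚ s58_Qb)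
    rw [WeierstrassCurve.map_map, WeierstrassCurve.map_map]
    congr 1
    exact RingHom.ext_int _ _
  have hWκ : m59g_Wk (k := ResidueField ↥A) W' = s58m_Wk W A := by
    show (W.map (Int.castRingHom ↥(ffi_O A L))).map
        (algebraMap ↥(ffi_O A L) (ResidueField ↥A)) =
      (W.map (Int.castRingHom ↥A)).map (residue ↥A)
    rw [WeierstrassCurve.map_map, WeierstrassCurve.map_map]
    congr 1
    exact RingHom.ext_int _ _
  have hM := s58m_model W A
  have hΔκ : (s58m_Wk W A).Δ ≠ 0 := by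
    rw [s58m_Wk_Δ]
    intro h0
    exact hgood ((s58m_residue_intCast_eq_zero_iff hA hpp W.Δ).mp h0)
  have hΔK : ((s58_WQ W)⁄s58_Qb).Δ ≠ 0 := by
    rw [s58m_curve_Δ]
    exact_mod_cast hΔ
  -- the auxiliary prime and the base point
  obtain ⟨ℓ, hℓ, hℓ2, hℓp⟩ : ∃ ℓ : ℕ, ℓ.Prime ∧ ℓ ≠ 2 ∧ ℓ ≠ p := by
    by_cases h3 : p = 3
    · exact ⟨5, by norm_num, by norm_num, by omega⟩
    · exact ⟨3, by norm_num, by norm_num, fun h => h3 h.symm⟩
  obtain ⟨P₀, hP₀1, hP₀0⟩ := s58m_exists_order_char_zero ((s58_WQ W)⁄s58_Qb) hΔK hℓ hℓ2 0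
  rw [zero_add, pow_one] at hP₀1
  rw [pow_zero, one_smul] at hP₀0
  have hunit : A.valuation ((ℓ : ℕ) : s58_Qb) = 1 := by
    have := (intVal_eq_one_iff A hA hpp ((ℓ : ℕ) : ℤ)).mpr (by
      intro h
      have h1 : p ∣ ℓ := by exact_mod_cast h
      exact hℓp ((Nat.prime_dvd_prime_iff_eq hpp hℓ).mp h1).symm)
    rwa [Int.cast_natCast] at this
  let Q₀ : s58r_E0 hM := ⟨P₀, s58r_mem_E0_of_good hM hΔκ P₀⟩
  have hred₀ : s58r_red hM Q₀ ≠ 0 := fun h0 =>
    hP₀0 (congrArg Subtype.val (s58r_red_injective_on_torsion hM hunit (P := Q₀) hP₀1 h0))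
  obtain ⟨a₀, b₀, h₀, h₀', hQ₀, hR₀⟩ := mzj_sm_coords hM Q₀ hred₀
  have hQ₀' : P₀ = Point.some _ _ h₀ := hQ₀
  -- inertia fixes `P₀`, hence its coordinates lie in `L`
  have hfix : ∀ σ ∈ A.inertiaSubgroupIn ℚ, σ (a₀ : s58_Qb) = a₀ ∧ σ (b₀ : s58_Qb) = b₀ := by
    intro σ hσ
    have h1 := s58m_inertia_fixed hM hσ hunit Q₀ hP₀1
    have h2 : ((Q₀ : s58r_E0 hM) : s58_E W) = Point.some _ _ h₀ := hQ₀
    rw [h2, smul_some σ h₀] at h1
    exact Point.some.inj h1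
  obtain ⟨ca, hca⟩ := (lvl.fix (a₀ : ff_Qb)).mpr (fun σ hσ => (hfix σ hσ).1)
  obtain ⟨cb, hcb⟩ := (lvl.fix (b₀ : ff_Qb)).mpr (fun σ hσ => (hfix σ hσ).2)
  let x₀ : ↥(ffi_O A L) := ⟨ca, by rw [ffi_mem_O, hca]; exact a₀.2⟩
  let y₀ : ↥(ffi_O A L) := ⟨cb, by rw [ffi_mem_O, hcb]; exact b₀.2⟩
  have ex : ((ι x₀ : ↥A) : ff_Qb) = a₀ := hca
  have ey : ((ι y₀ : ↥A) : ff_Qb) = b₀ := hcb
  have h₀x : ((s58_WQ W)⁄s58_Qb).Nonsingular ((ι x₀ : ↥A) : ff_Qb) ((ι y₀ : ↥A) : ff_Qb) := by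
    rw [ex, ey]; exact h₀
  have hP₀x : Point.some _ _ h₀x = P₀ := by
    rw [hQ₀']
    exact m59g_some_congr ex ey h₀x h₀
  -- the group of points
  let j : m59g_Tn W p n →+ s58_E W :=
    (Submodule.torsionBy ℤ (s58_E W) ((p : ℤ) ^ n)).subtype.toAddMonoidHom
  have hjz : ∀ z : m59g_Tn W p n, (p ^ n) • j z = 0 := by
    intro z
    have hz := z.2
    rw [Submodule.mem_torsionBy_iff] at hz
    have h1 : ∀ Q : s58_E W, ((p : ℤ) ^ n) • Q = (p ^ n : ℕ) • Q := fun Q => by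
      rw [← Nat.cast_pow, natCast_zsmul]
    rw [← h1]
    exact hz
  have hne : ∀ z : m59g_Tn W p n, s58r_red hM
      ⟨j z + Point.some _ _ h₀x, s58r_mem_E0_of_good hM hΔκ _⟩ ≠ 0 := by
    intro z h0
    let Z : s58r_E0 hM := ⟨j z, s58r_mem_E0_of_good hM hΔκ _⟩
    have hsum : (⟨j z + Point.some _ _ h₀x, s58r_mem_E0_of_good hM hΔκ _⟩ : s58r_E0 hM) =
        Z + Q₀ := Subtype.ext (by
      show j z + Point.some _ _ h₀x = j z + P₀
      rw [hP₀x])
    rw [hsum, map_add] at h0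
    have hZ : (p ^ n) • s58r_red hM Z = 0 := by
      rw [← map_nsmul]
      have : (p ^ n) • Z = 0 := Subtype.ext (hjz z)
      rw [this, map_zero]
    have hQ1 : ℓ • s58r_red hM Q₀ = 0 := by
      rw [← map_nsmul]
      have : ℓ • Q₀ = 0 := Subtype.ext hP₀1
      rw [this, map_zero]
    have hQ2 : (p ^ n) • s58r_red hM Q₀ = 0 := by
      have e : s58r_red hM Q₀ = - s58r_red hM Z := by
        rw [eq_neg_iff_add_eq_zero, add_comm]; exact h0
      rw [e, neg_nsmul, hZ, neg_zero]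
    have hd1 := addOrderOf_dvd_of_nsmul_eq_zero hQ1
    have hd2 := addOrderOf_dvd_of_nsmul_eq_zero hQ2
    have hcop : Nat.Coprime ℓ (p ^ n) :=
      Nat.Coprime.pow_right n ((Nat.coprime_primes hℓ hpp).mpr hℓp)
    have h1 : addOrderOf (s58r_red hM Q₀) = 1 :=
      Nat.eq_one_of_dvd_coprimes hcop hd1 hd2
    exact hred₀ (AddMonoid.addOrderOf_eq_one_iff.mp h1)
  have hinj : Function.Injective (algebraMap ↥(ffi_O A L) ff_Qb) :=
    ffi_algebraMap_O_Qb_injective A L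
  obtain ⟨PK, Pκ, P0, cx, cy, hc, hPKmk, hP, hLK, hUK, hLκ, hUκ⟩ :=
    m59g_inst_abs' A ι hιK hικ W' hinj ((s58_WQ W)⁄s58_Qb) hWK (s58m_Wk W A) hWκ hM hΔκ j
      x₀ y₀ h₀x hne
  -- the package
  have hΔunit : IsUnit W'.Δ := by
    rw [ffi_isUnit_iff]
    have e1 : W'.Δ = ((W.Δ : ℤ) : ↥(ffi_O A L)) := by
      show (W.map (Int.castRingHom ↥(ffi_O A L))).Δ = _
      rw [WeierstrassCurve.map_Δ]
      rfl
    rw [e1, map_intCast, A.valuation_eq_one_iff]
    have := (intVal_eq_one_iff A hA hpp W.Δ).mpr hgood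
    exact_mod_cast this
  have hpkg := m59g_isPkg ↥(ffi_O A L) W' hΔunit ((p : ℕ) : ↥(ffi_O A L)) lvl.irr ff_Qb
    (ResidueField ↥A) (ffi_res_surj A L p lvl) (ffi_res_ker A L p lvl) hinj
  -- Galois equivariance of the coordinates
  have hfixL : ∀ σ ∈ ((IsScalarTower.toAlgHom ℚ L ff_Qb).fieldRange).fixingSubgroup,
      ∀ c : L, σ (algebraMap L ff_Qb c) = algebraMap L ff_Qb c := by
    intro σ hσ c
    exact hσ ⟨algebraMap L ff_Qb c, ⟨c, rfl⟩⟩
  have hcσ : ∀ σ ∈ ((IsScalarTower.toAlgHom ℚ L ff_Qb).fieldRange).fixingSubgroup,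
      ∀ z : m59g_Tn W p n, cx (σ • z) = σ (cx z) ∧ cy (σ • z) = σ (cy z) := by
    intro σ hσ z
    obtain ⟨h1, e1⟩ := hc z
    obtain ⟨h2, e2⟩ := hc (σ • z)
    have hσP : σ • (Point.some _ _ h₀x : s58_E W) = Point.some _ _ h₀x := by
      rw [smul_some σ h₀x]
      exact m59g_some_congr (hfixL σ hσ ca) (hfixL σ hσ cb) _ h₀x
    have hj : j (σ • z) = σ • j z := rfl
    have e3 : (Point.some _ _ h2 : s58_E W) = σ • (Point.some _ _ h1 : s58_E W) := by
      have e4 : σ • (j z + (Point.some _ _ h₀x : s58_E W)) =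
          σ • j z + σ • (Point.some _ _ h₀x : s58_E W) := ga_smul_add σ _ _
      rw [← e2, ← e1, e4, hσP, hj]
    rw [smul_some σ h1] at e3
    exact Point.some.inj e3
  have hPKσ : ∀ σ ∈ ((IsScalarTower.toAlgHom ℚ L ff_Qb).fieldRange).fixingSubgroup,
      ∀ (z : m59g_Tn W p n) (i : Fin 1) (c : W'.CoordinateRing),
        PK (σ • z) i c = σ (PK z i c) := by
    intro σ hσ z i c
    obtain ⟨g, rfl⟩ := AdjoinRoot.mk_surjective c
    show PK (σ • z) i (CoordinateRing.mk W' g) = σ (PK z i (CoordinateRing.mk W' g))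
    rw [hPKmk, hPKmk, (hcσ σ hσ z).1, (hcσ σ hσ z).2]
    have e1 : (g.map (mapRingHom (algebraMap ↥(ffi_O A L) ff_Qb))) =
        (g.map (mapRingHom (algebraMap ↥(ffi_O A L) ff_Qb))).map
          (mapRingHom (σ : ff_Qb →+* ff_Qb)) := by
      rw [Polynomial.map_map, Polynomial.mapRingHom_comp]
      congr 2
      refine RingHom.ext fun o => ?_
      exact (hfixL σ hσ (o : L)).symm
    conv_lhs => rw [e1]
    exact Polynomial.map_mapRingHom_evalEval (σ : ff_Qb →+* ff_Qb) _ _ _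
  refine ⟨_, m59g_local_of_inst A _ ↥(ffi_O A L) W'.CoordinateRing ↥(ffi_O A L)
    ((p : ℕ) : ↥(ffi_O A L)) (m59g_Lam W') (m59g_lead W') 1 1 2 1 (m59g_Tn W p n)
    (m59g_Tn_open W p n) PK Pκ P0 ?_ ?_ hpkg hP hLK hUK hLκ hUκ ?_ ?_⟩
  · ext c
    constructor
    · rintro ⟨o, rfl⟩
      exact ⟨o.2, ⟨(o : L), rfl⟩⟩
    · rintro ⟨haA, ⟨c, rfl⟩⟩
      exact ⟨⟨c, haA⟩, rfl⟩
  · intro o h
    rfl
  · intro σ hσ z c i
    unfold ff_symFun
    rw [show σ _ = (σ : ff_Qb →+* ff_Qb) _ from rfl, m59g_esymm_map, Multiset.map_map]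
    congr 1
    refine Multiset.map_congr rfl fun t _ => ?_
    exact hPKσ σ hσ z t c
  · intro z z' hzz'
    by_contra hcon
    push Not at hcon
    apply hzz'
    obtain ⟨h1, e1⟩ := hc z
    obtain ⟨h2, e2⟩ := hc z'
    have hX := hcon (CoordinateRing.mk W' (C X)) 1
    have hY := hcon (CoordinateRing.mk W' Y) 1
    rw [m59g_symFun_one, m59g_symFun_one, hPKmk, hPKmk] at hX hY
    have hx : cx z = cx z' := by simpa [Polynomial.evalEval_C] using hX
    have hy : cy z = cy z' := by simpa [Polynomial.evalEval_X] using hY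
    have e3 : j z + Point.some _ _ h₀x = j z' + Point.some _ _ h₀x := by
      rw [e1, e2]
      exact m59g_some_congr hx hy h1 h2
    exact Subtype.ext (add_right_cancel e3)

/-- **(F1)** the geometric cell of (G5-flat). -/
theorem m59g_locOrd : m59g_LocOrd_stmt := by
  intro p _ hp2 W hΔ hgood n A hA
  have hgood' : ¬ (p : ℤ) ∣ W.Δ := hgood
  obtain ⟨H₁, hH₁⟩ := m59g_locOrd_of_level W hΔ p hp2 hgood' n A hA ↥(ffi_L A) (ffi_lvi p A hA)
  have e : (IsScalarTower.toAlgHom ℚ ↥(ffi_L A) ff_Qb).fieldRange = ffi_L A := by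
    ext x
    constructor
    · rintro ⟨c, rfl⟩
      exact c.2
    · intro hx
      exact ⟨⟨x, hx⟩, rfl⟩
  rw [e] at hH₁
  exact ⟨H₁, hH₁⟩

end

end Fermat.Agent.M59
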