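import Fermat.Agent.M59.G5.Seams2
import Fermat.Agent.M59.G5.Flat.WInst
import Fermat.Agent.FF.Car.InstOrd
import Fermat.Agent.FF.Car.RepMod
import Fermat.Agent.FF.Car.Padic
import Fermat.Agent.FF.Assembly

/-!
M59 / block [G5], cell **(F-soft)** (helper23), prefix `m59gs_`.

`m59gs_main : m59g_FlatSoft2_stmt` (the algebraic cell of (G5-flat)), and, with helper29's landed
`m59g_locOrd`, the closed statements `m59gs_flat2 : m59g_Flat2_stmt`, `m59gs_flat : m59g_Flat_stmt`.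

Route (no pull-back of functions is needed: main's closure lemma `ffc_ord_subquot` does it):
for an ideal `I` of finite index of `𝒪`, `pⁿ ∈ I` for some `n`; `M = W(ℚ̄)[pⁿ]` carries an order
(local order at one place + main's closed [DESC]); with representatives `r : Fin s → 𝒪` of `𝒪 ⧸ I`
the map `(Fin s → V) →+ V_𝒪 ⧸ I V_𝒪`, `v ↦ [∑ rᵢ ⊗ vᵢ]` is onto, equivariant, and kills the kernel of
the componentwise projection `(Fin s → V) →+ (Fin s → M)`; so `V_𝒪 ⧸ I V_𝒪` is an equivariant quotient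
of `Fin s → M`, hence carries an order, hence (main's closed [HO]) a finite flat Hopf algebra.
-/

set_option autoImplicit false
set_option linter.style.haveILetI false
set_option linter.unusedSectionVars false

open IsLocalRing WeierstrassCurve Fermat.Agent.S58 Fermat.Agent.FF Fermat.Agent.JT3
open scoped TensorProduct

namespace Fermat.Agent.M59

noncomputable section

/-! ### The abstract quotient map -/

section Abstract

variable {R 𝒪 V : Type} [CommRing R] [CommRing 𝒪] [Algebra R 𝒪] [AddCommGroup V] [Module R V]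

/-- `v ↦ [∑ rᵢ ⊗ vᵢ]` -/
def m59gs_g (I : Ideal 𝒪) {s : ℕ} (r : Fin s → 𝒪) :
    (Fin s → V) →+ (𝒪 ⊗[R] V) ⧸ (I • (⊤ : Submodule 𝒪 (𝒪 ⊗[R] V))) where
  toFun v := Submodule.Quotient.mk (∑ i, r i ⊗ₜ[R] v i)
  map_zero' := by
    simp only [Pi.zero_apply, TensorProduct.tmul_zero, Finset.sum_const_zero,
      Submodule.Quotient.mk_zero]
  map_add' v w := by
    simp only [Pi.add_apply, TensorProduct.tmul_add, Finset.sum_add_distrib,
      Submodule.Quotient.mk_add]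

theorem m59gs_g_apply (I : Ideal 𝒪) {s : ℕ} (r : Fin s → 𝒪) (v : Fin s → V) :
    m59gs_g (R := R) I r v = Submodule.Quotient.mk (∑ i, r i ⊗ₜ[R] v i) := rfl

theorem m59gs_tmul_mem (I : Ideal 𝒪) (b : 𝒪) (hb : b ∈ I) (v : V) :
    b ⊗ₜ[R] v ∈ I • (⊤ : Submodule 𝒪 (𝒪 ⊗[R] V)) := by
  have h1 : b ⊗ₜ[R] v = b • ((1 : 𝒪) ⊗ₜ[R] v) := by
    rw [TensorProduct.smul_tmul', smul_eq_mul, mul_one]
  rw [h1]
  exact Submodule.smul_mem_smul hb Submodule.mem_top

theorem m59gs_g_single (I : Ideal 𝒪) {s : ℕ} (r : Fin s → 𝒪) (i : Fin s) (v : V) :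
    m59gs_g (R := R) I r (Pi.single i v) = Submodule.Quotient.mk (r i ⊗ₜ[R] v) := by
  classical
  rw [m59gs_g_apply]
  congr 1
  rw [Finset.sum_eq_single i]
  · rw [Pi.single_eq_same]
  · intro j _ hj
    rw [Pi.single_eq_of_ne hj, TensorProduct.tmul_zero]
  · intro h
    exact absurd (Finset.mem_univ i) h

theorem m59gs_g_surjective (I : Ideal 𝒪) {s : ℕ} (r : Fin s → 𝒪)
    (hr : ∀ b : 𝒪, ∃ i, b - r i ∈ I) : Function.Surjective (m59gs_g (R := R) (V := V) I r) := by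
  intro q
  obtain ⟨x, rfl⟩ := Submodule.Quotient.mk_surjective _ q
  induction x using TensorProduct.induction_on with
  | zero => exact ⟨0, map_zero _⟩
  | tmul b v =>
    obtain ⟨i, hi⟩ := hr b
    refine ⟨Pi.single i v, ?_⟩
    rw [m59gs_g_single, eq_comm, Submodule.Quotient.eq, ← TensorProduct.sub_tmul]
    exact m59gs_tmul_mem I _ hi v
  | add x y hx hy =>
    obtain ⟨a, ha⟩ := hx
    obtain ⟨b, hb⟩ := hy
    exact ⟨a + b, by rw [map_add, ha, hb, Submodule.Quotient.mk_add]⟩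

/-- the kernel condition: components divisible by `c` with `c • 1 ∈ I` die -/
theorem m59gs_g_ker (I : Ideal 𝒪) {s : ℕ} (r : Fin s → 𝒪) (c : R)
    (hc : algebraMap R 𝒪 c ∈ I) (v : Fin s → V) (hv : ∀ i, ∃ w : V, v i = c • w) :
    m59gs_g (R := R) I r v = 0 := by
  rw [m59gs_g_apply, Submodule.Quotient.mk_eq_zero]
  refine Submodule.sum_mem _ fun i _ => ?_
  obtain ⟨w, hw⟩ := hv i
  rw [hw, TensorProduct.tmul_smul, TensorProduct.smul_tmul', Algebra.smul_def]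
  exact m59gs_tmul_mem I _ (Ideal.mul_mem_right _ _ hc) w

theorem m59gs_g_baseChange (I : Ideal 𝒪) {s : ℕ} (r : Fin s → 𝒪) (φ : V →ₗ[R] V)
    (v : Fin s → V) :
    m59gs_g (R := R) I r (fun i => φ (v i)) =
      Submodule.Quotient.mk (φ.baseChange 𝒪 (∑ i, r i ⊗ₜ[R] v i)) := by
  rw [m59gs_g_apply, map_sum]
  simp only [LinearMap.baseChange_tmul]

/-- representatives of a finite quotient -/
theorem m59gs_reps (I : Ideal 𝒪) [Finite (𝒪 ⧸ I)] :
    ∃ (s : ℕ) (r : Fin s → 𝒪), ∀ b : 𝒪, ∃ i, b - r i ∈ I := by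
  obtain ⟨s, ⟨e⟩⟩ := Finite.exists_equiv_fin (𝒪 ⧸ I)
  refine ⟨s, fun i => Function.surjInv Ideal.Quotient.mk_surjective (e.symm i), fun b => ?_⟩
  refine ⟨e (Ideal.Quotient.mk I b), ?_⟩
  rw [← Ideal.Quotient.eq, Function.surjInv_eq Ideal.Quotient.mk_surjective,
    Equiv.symm_apply_apply]

end Abstract

/-! ### The finite levels of the Tate module -/

section Tate

variable {W : WeierstrassCurve ℤ} {p : ℕ} [Fact p.Prime] {ρW : GaloisRepAdic ℤ_[p]}
  {π : ℕ → ρW.V →+ s58_E W}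

/-- `π n` with values in `W(ℚ̄)[pⁿ]` -/
def m59gs_pi (hT : s58top_IsTate W p ρW π) (n : ℕ) : ρW.V →+ m59g_Tn W p n where
  toFun v := ⟨π n v, by
    rw [Submodule.mem_torsionBy_iff, ← Nat.cast_pow, natCast_zsmul]
    exact hT.tor n v⟩
  map_zero' := Subtype.ext (map_zero _)
  map_add' v w := Subtype.ext (map_add _ v w)

theorem m59gs_pi_gal (hT : s58top_IsTate W p ρW π) (n : ℕ) (σ : ff_GQ) (v : ρW.V) :
    m59gs_pi hT n (ρW.ρ σ v) = σ • m59gs_pi hT n v :=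
  Subtype.ext (hT.gal n σ v)

theorem m59gs_pi_ker (hT : s58top_IsTate W p ρW π) (n : ℕ) (v : ρW.V)
    (h : m59gs_pi hT n v = 0) : ∃ w, v = (p : ℤ_[p]) ^ n • w :=
  hT.ker n v (congrArg Subtype.val h)

/-- the componentwise projection -/
def m59gs_P (hT : s58top_IsTate W p ρW π) (n s : ℕ) :
    (Fin s → ρW.V) →+ (Fin s → m59g_Tn W p n) where
  toFun v i := m59gs_pi hT n (v i)
  map_zero' := by
    funext i
    exact map_zero _
  map_add' v w := by
    funext i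
    exact map_add _ _ _

/-- `W(ℚ̄)[pⁿ]` carries an order (local order at one place + main's closed [DESC]) -/
theorem m59gs_order (hLoc : m59g_LocOrd_stmt) (hp2 : p ≠ 2) (hΔ : W.Δ ≠ 0)
    (hgood : W.IsGoodPrimeFor p) (n : ℕ) :
    ∃ H : Subalgebra (ff_R p) (m59g_Tn W p n → ff_Qb), ff_IsOrder p (m59g_Tn W p n) H := by
  obtain ⟨A, hA⟩ := ff_exists_place p (Fact.out : p.Prime)
  haveI := m59g_Tn_finite W hΔ p hp2 n
  obtain ⟨H₁, hH₁⟩ := hLoc p hp2 W hΔ hgood n A hA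
  exact ffx_seamDESC p A hA _ (m59g_Tn_open W p n) H₁ (m59g_isLocalOrder_of p A hA _ H₁ hH₁)

end Tate

/-! ### (G5-flat) -/

/-- **the core of (F-soft)**: for ANY complete local coefficient ring `𝒪` with finite residue field
and `p ∈ 𝔪`. -/
theorem m59gs_flat_core (hLoc : m59g_LocOrd_stmt) (p : ℕ) [Fact p.Prime] (hp2 : p ≠ 2)
    (W : WeierstrassCurve ℤ) (hΔ : W.Δ ≠ 0) (hgood : W.IsGoodPrimeFor p)
    (ρW : GaloisRepAdic ℤ_[p]) (π : ℕ → ρW.V →+ s58_E W) (hT : s58top_IsTate W p ρW π)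
    (𝒪 : Type) [CommRing 𝒪] [IsLocalRing 𝒪] [IsAdicComplete (maximalIdeal 𝒪) 𝒪]
    [Finite (ResidueField 𝒪)] (hp : (p : 𝒪) ∈ maximalIdeal 𝒪) :
    (m59g_rho p 𝒪 hp ρW).IsFlatAt p := by
  refine ⟨inferInstance, fun I hI => ?_⟩
  haveI : Finite (𝒪 ⧸ I) := hI
  letI : Algebra ℤ_[p] 𝒪 := (cya_padicHom p 𝒪 hp).toAlgebra
  letI := ffc_rm_action (m59g_rho p 𝒪 hp ρW) I
  obtain ⟨n, hn⟩ := ffc_pa_pow_mem_of_finite I (p : 𝒪) hp
  haveI := m59g_Tn_finite W hΔ p hp2 n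
  have hM := m59gs_order hLoc hp2 hΔ hgood n
  obtain ⟨s, r, hr⟩ := m59gs_reps I
  have hc : algebraMap ℤ_[p] 𝒪 ((p : ℤ_[p]) ^ n) ∈ I := by
    rw [map_pow, map_natCast]
    exact hn
  obtain ⟨hfin, H'', hH''⟩ := ffc_io_subquot_ker (ℓ := p) (M := m59g_Tn W p n)
    (M'' := (m59g_rho p 𝒪 hp ρW).V ⧸ I • (⊤ : Submodule 𝒪 (m59g_rho p 𝒪 hp ρW).V))
    (W := Fin s → ρW.V) hM s (fun σ v i => ρW.ρ σ (v i)) (m59gs_P hT n s)
    (fun σ v => by
      funext i
      exact m59gs_pi_gal hT n σ (v i))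
    (m59gs_g (R := ℤ_[p]) I r) (m59gs_g_surjective I r hr)
    (fun σ v => (m59gs_g_baseChange (R := ℤ_[p]) I r (ρW.ρ σ) v).trans rfl)
    (fun v hv => m59gs_g_ker I r _ hc v fun i =>
      m59gs_pi_ker hT n (v i) (congrFun hv i))
  haveI := hfin
  obtain ⟨H', i1, i2, h1, h2, h3, e, he1, he2⟩ := ffh_seamHO p _ H'' hH''
  exact ⟨H', i1, i2, h1, h2, h3, e, he1, fun σ f g hfg => he2 σ f g hfg⟩

/-- **(F-soft)**, issue 2. -/
theorem m59gs_main : m59g_FlatSoft2_stmt :=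
  fun hLoc p _ hp2 W hΔ hgood ρW π hT 𝒪 _ _ _ _ _ _ hp =>
    m59gs_flat_core hLoc p hp2 W hΔ hgood ρW π hT 𝒪 hp

/-- **(G5-flat)**, issue 2, CLOSED (with helper29's `m59g_locOrd`). -/
theorem m59gs_flat2 : m59g_Flat2_stmt := m59gs_main m59g_locOrd

/-- **(G5-flat)**, issue 1, CLOSED. -/
theorem m59gs_flat : m59g_Flat_stmt := m59g_flat_of_flat2 m59gs_flat2

/-- (F-soft), issue 1. -/
theorem m59gs_main1 : m59g_FlatSoft_stmt := fun hLoc => m59g_flat_of_flat2 (m59gs_main hLoc)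

end

end Fermat.Agent.M59
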