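/-
M59 / block [G5] (helper29), prefix `m59g_`.  Cell (G5-flat)(P3), field level: on a Weierstrass chart over a
field, (LE) `P₁ + P₂ = P₃ + P₄ ⟹ (h) I₁ I₂ = (h') I₃ I₄` with `h, h'` of exact pole order `s`, and
(UQ) `l(P) = 1` in ideal form.
-/
import Mathlib
import Fermat.Agent.M59.G5.Flat.WWeight

set_option autoImplicit false
set_option linter.unusedSimpArgs false
set_option linter.unusedVariables false
set_option linter.unusedSectionVars false
set_option linter.style.haveILetI false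

open Polynomial WeierstrassCurve WeierstrassCurve.Affine
open scoped Polynomial.Bivariate

namespace Fermat.Agent.M59

noncomputable section

variable {K : Type} [Field K] [DecidableEq K] (W : Affine K)

/-! ### the two kinds of generators -/

theorem m59g_XClass_eq (x : K) : CoordinateRing.XClass W x = m59g_el W (X - C x) 0 := by
  unfold m59g_el CoordinateRing.XClass
  rw [zero_smul, add_zero, CoordinateRing.smul, mul_one]

theorem m59g_YClass_eq (y : K[X]) : CoordinateRing.YClass W y = m59g_el W (-y) 1 := by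
  unfold m59g_el CoordinateRing.YClass
  rw [CoordinateRing.smul, one_smul, mul_one, C_neg, map_neg, map_sub]
  ring

theorem m59g_Phi_XClass (x : K) : m59g_Phi W (CoordinateRing.XClass W x) = X ^ 2 - C x := by
  rw [m59g_XClass_eq, m59g_Phi_el]
  simp

theorem m59g_XClass_mem (x : K) : CoordinateRing.XClass W x ∈ m59g_Lam W 2 := by
  rw [m59g_mem_Lam_iff_wt, m59g_wt, m59g_Phi_XClass]
  compute_degree

theorem m59g_XClass_lead (x : K) : (m59g_Phi W (CoordinateRing.XClass W x)).coeff 2 = 1 := by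
  rw [m59g_Phi_XClass]
  simp [coeff_X_pow, coeff_C]

theorem m59g_wt_XClass (x : K) : m59g_wt W (CoordinateRing.XClass W x) = 2 := by
  rw [m59g_wt, m59g_Phi_XClass]
  compute_degree!

theorem m59g_Phi_YClass_line (x y ℓ : K) :
    m59g_Phi W (CoordinateRing.YClass W (linePolynomial x y ℓ)) =
      X ^ 3 - (C ℓ * (X ^ 2 - C x) + C y) := by
  rw [m59g_YClass_eq, m59g_Phi_el, linePolynomial]
  simp
  ring

theorem m59g_YClass_line_mem (x y ℓ : K) :
    CoordinateRing.YClass W (linePolynomial x y ℓ) ∈ m59g_Lam W 3 := by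
  rw [m59g_mem_Lam_iff_wt, m59g_wt, m59g_Phi_YClass_line]
  compute_degree

theorem m59g_YClass_line_lead (x y ℓ : K) :
    (m59g_Phi W (CoordinateRing.YClass W (linePolynomial x y ℓ))).coeff 3 = 1 := by
  rw [m59g_Phi_YClass_line]
  simp [coeff_X_pow, coeff_C]

theorem m59g_Phi_YClass_C (y : K) :
    m59g_Phi W (CoordinateRing.YClass W (C y)) = X ^ 3 - C y := by
  rw [m59g_YClass_eq, m59g_Phi_el]
  simp
  ring

theorem m59g_wt_YClass_C (y : K) : m59g_wt W (CoordinateRing.YClass W (C y)) = 3 := by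
  rw [m59g_wt, m59g_Phi_YClass_C]
  compute_degree!

/-! ### (LE) -/

/-- **(LE)** -/
theorem m59g_LE_field {x₁ y₁ x₂ y₂ x₃ y₃ x₄ y₄ : K} (h₁ : W.Nonsingular x₁ y₁)
    (h₂ : W.Nonsingular x₂ y₂) (h₃ : W.Nonsingular x₃ y₃) (h₄ : W.Nonsingular x₄ y₄)
    (hsum : Point.some _ _ h₁ + Point.some _ _ h₂ = Point.some _ _ h₃ + Point.some _ _ h₄) :
    ∃ (s : ℕ) (h h' : W.CoordinateRing), h ∈ m59g_Lam W s ∧ h' ∈ m59g_Lam W s ∧
      (m59g_Phi W h).coeff s = 1 ∧ (m59g_Phi W h').coeff s = 1 ∧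
      Ideal.span {h} * CoordinateRing.XYIdeal W x₁ (C y₁) * CoordinateRing.XYIdeal W x₂ (C y₂) =
        Ideal.span {h'} * CoordinateRing.XYIdeal W x₃ (C y₃) *
          CoordinateRing.XYIdeal W x₄ (C y₄) := by
  by_cases h12 : x₁ = x₂ ∧ y₁ = W.negY x₂ y₂
  · -- both sums are zero
    have e12 : Point.some _ _ h₁ + Point.some _ _ h₂ = 0 := Point.add_of_Y_eq h12.1 h12.2
    have h34 : x₃ = x₄ ∧ y₃ = W.negY x₄ y₄ := by
      by_contra hne
      rw [e12, Point.add_some hne] at hsum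
      exact Point.some_ne_zero _ hsum.symm
    obtain ⟨rfl, rfl⟩ := h12
    obtain ⟨rfl, rfl⟩ := h34
    refine ⟨2, CoordinateRing.XClass W x₃, CoordinateRing.XClass W x₁, m59g_XClass_mem W _,
      m59g_XClass_mem W _, m59g_XClass_lead W _, m59g_XClass_lead W _, ?_⟩
    rw [mul_assoc, mul_assoc, CoordinateRing.XYIdeal_neg_mul h₂, CoordinateRing.XYIdeal_neg_mul h₄,
      CoordinateRing.XIdeal, CoordinateRing.XIdeal, mul_comm]
  · have h34 : ¬ (x₃ = x₄ ∧ y₃ = W.negY x₄ y₄) := by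
      intro h34
      rw [Point.add_of_Y_eq h34.1 h34.2, Point.add_some h12] at hsum
      exact Point.some_ne_zero _ hsum
    rw [Point.add_some h12, Point.add_some h34] at hsum
    have hx : W.addX x₁ x₂ (W.slope x₁ x₂ y₁ y₂) = W.addX x₃ x₄ (W.slope x₃ x₄ y₃ y₄) := by
      injection hsum
    have hy : W.addY x₁ x₂ y₁ (W.slope x₁ x₂ y₁ y₂) = W.addY x₃ x₄ y₃ (W.slope x₃ x₄ y₃ y₄) := by
      injection hsum
    have e1 := CoordinateRing.XYIdeal_mul_XYIdeal h₁.1 h₂.1 h12
    have e2 := CoordinateRing.XYIdeal_mul_XYIdeal h₃.1 h₄.1 h34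
    rw [← hx, ← hy] at e2
    refine ⟨3, CoordinateRing.YClass W (linePolynomial x₃ y₃ (W.slope x₃ x₄ y₃ y₄)),
      CoordinateRing.YClass W (linePolynomial x₁ y₁ (W.slope x₁ x₂ y₁ y₂)),
      m59g_YClass_line_mem W _ _ _, m59g_YClass_line_mem W _ _ _, m59g_YClass_line_lead W _ _ _,
      m59g_YClass_line_lead W _ _ _, ?_⟩
    have hX0 : CoordinateRing.XClass W (W.addX x₁ x₂ (W.slope x₁ x₂ y₁ y₂)) ≠ 0 :=
      CoordinateRing.XClass_ne_zero _
    rw [← Ideal.span_singleton_mul_right_inj hX0]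
    have e1' : Ideal.span {CoordinateRing.XClass W (W.addX x₁ x₂ (W.slope x₁ x₂ y₁ y₂))} *
        (CoordinateRing.XYIdeal W x₁ (C y₁) * CoordinateRing.XYIdeal W x₂ (C y₂)) = _ := e1
    have e2' : Ideal.span {CoordinateRing.XClass W (W.addX x₁ x₂ (W.slope x₁ x₂ y₁ y₂))} *
        (CoordinateRing.XYIdeal W x₃ (C y₃) * CoordinateRing.XYIdeal W x₄ (C y₄)) = _ := e2
    calc Ideal.span {CoordinateRing.XClass W (W.addX x₁ x₂ (W.slope x₁ x₂ y₁ y₂))} *
          (Ideal.span {CoordinateRing.YClass W (linePolynomial x₃ y₃ (W.slope x₃ x₄ y₃ y₄))} *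
            CoordinateRing.XYIdeal W x₁ (C y₁) * CoordinateRing.XYIdeal W x₂ (C y₂))
        = Ideal.span {CoordinateRing.YClass W (linePolynomial x₃ y₃ (W.slope x₃ x₄ y₃ y₄))} *
          (Ideal.span {CoordinateRing.XClass W (W.addX x₁ x₂ (W.slope x₁ x₂ y₁ y₂))} *
            (CoordinateRing.XYIdeal W x₁ (C y₁) * CoordinateRing.XYIdeal W x₂ (C y₂))) := by ring
      _ = Ideal.span {CoordinateRing.YClass W (linePolynomial x₁ y₁ (W.slope x₁ x₂ y₁ y₂))} *
          (Ideal.span {CoordinateRing.XClass W (W.addX x₁ x₂ (W.slope x₁ x₂ y₁ y₂))} *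
            (CoordinateRing.XYIdeal W x₃ (C y₃) * CoordinateRing.XYIdeal W x₄ (C y₄))) := by
          rw [e1', e2', CoordinateRing.YIdeal, CoordinateRing.YIdeal]
          ring
      _ = _ := by ring

/-! ### (UQ) -/

/-- **(UQ)** `l(P) = 1` -/
theorem m59g_UQ_field {x y : K} (hP : W.Equation x y) (s : ℕ) (U U' : W.CoordinateRing)
    (hU : U ∈ m59g_Lam W s) (hU' : U' ∈ m59g_Lam W s) (hlead : (m59g_Phi W U').coeff s ≠ 0)
    (hdiv : ∀ v ∈ CoordinateRing.XYIdeal W x (C y), U' ∣ U * v) :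
    ∃ c : K, U = c • U' := by
  set c : K := (m59g_Phi W U).coeff s / (m59g_Phi W U').coeff s with hc
  refine ⟨c, ?_⟩
  set U₁ := U - c • U' with hU₁
  have hU₁s : U₁ ∈ m59g_Lam W s := Submodule.sub_mem _ hU (Submodule.smul_mem _ _ hU')
  have hU₁lead : (m59g_Phi W U₁).coeff s = 0 := by
    rw [hU₁, map_sub, map_smul, coeff_sub, coeff_smul, smul_eq_mul, hc, div_mul_cancel₀ _ hlead,
      sub_self]
  have hdiv₁ : ∀ v ∈ CoordinateRing.XYIdeal W x (C y), U' ∣ U₁ * v := by
    intro v hv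
    rw [hU₁, sub_mul]
    refine dvd_sub (hdiv v hv) ?_
    exact ⟨algebraMap K _ c * v, by rw [Algebra.smul_def]; ring⟩
  suffices h0 : U₁ = 0 by
    rw [hU₁, sub_eq_zero] at h0
    exact h0
  by_contra hne
  have hU'0 : U' ≠ 0 := by
    rintro rfl
    rw [map_zero, coeff_zero] at hlead
    exact hlead rfl
  have hwU' : m59g_wt W U' = s := by
    apply le_antisymm ((m59g_mem_Lam_iff_wt W).1 hU')
    exact le_natDegree_of_ne_zero hlead
  -- `wt U₁ < s`
  have hwU₁ : m59g_wt W U₁ < s := by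
    have h1 := (m59g_mem_Lam_iff_wt W).1 hU₁s
    rcases Nat.lt_or_ge (m59g_wt W U₁) s with h | h
    · exact h
    · exfalso
      have h2 : m59g_wt W U₁ = s := le_antisymm h1 h
      have h3 : (m59g_Phi W U₁).leadingCoeff = 0 := by
        rw [leadingCoeff, show (m59g_Phi W U₁).natDegree = s from h2, hU₁lead]
      exact hne (m59g_Phi_injective W ((leadingCoeff_eq_zero.1 h3).trans (map_zero _).symm))
  -- the two test elements
  have hXmem : CoordinateRing.XClass W x ∈ CoordinateRing.XYIdeal W x (C y) :=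
    Ideal.subset_span (by simp)
  have hYmem : CoordinateRing.YClass W (C y) ∈ CoordinateRing.XYIdeal W x (C y) :=
    Ideal.subset_span (by simp)
  obtain ⟨a, ha⟩ := hdiv₁ _ hXmem
  obtain ⟨b, hb⟩ := hdiv₁ _ hYmem
  have ha0 : a ≠ 0 := by
    rintro rfl
    rw [mul_zero] at ha
    rcases mul_eq_zero.1 ha with h | h
    · exact hne h
    · exact CoordinateRing.XClass_ne_zero x h
  have hb0 : b ≠ 0 := by
    rintro rfl
    rw [mul_zero] at hb
    rcases mul_eq_zero.1 hb with h | h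
    · exact hne h
    · exact CoordinateRing.YClass_ne_zero _ h
  have wa := congrArg (m59g_wt W) ha
  rw [m59g_wt_mul W hne (CoordinateRing.XClass_ne_zero x), m59g_wt_mul W hU'0 ha0, m59g_wt_XClass,
    hwU'] at wa
  have wb := congrArg (m59g_wt W) hb
  rw [m59g_wt_mul W hne (CoordinateRing.YClass_ne_zero _), m59g_wt_mul W hU'0 hb0, m59g_wt_YClass_C,
    hwU'] at wb
  have h1 := m59g_wt_ne_one W a
  have h2 := m59g_wt_ne_one W b
  omega

end

end Fermat.Agent.M59
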