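import Fermat.Agent.M59.G5.Flat.Seams
import Fermat.Agent.FF.AssemblyGeom
import Fermat.Agent.FF.Add.Closed
import Fermat.Agent.FF.Gal

/-!
M59 / block [G5] (helper29), prefix `m59g_`.  Cell (G5-flat)(F1), the ABSTRACT ASSEMBLY: the twin of
main's `ff_local_of_seams` (FF/AssemblyGeom.lean) for an ARBITRARY finite `G_ℚ`-module `M` (instead
of `J₀(N)[ℓ^k]`) and an EXPLICIT level `L₁`: instance data of a package (points `PK`, `Pκ`, `P0`)
⟹ `m59g_IsLocOrd A L₁ M (ff_symAlg PK).toSubring`, by main's closed [ADD] and [GAL].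
-/

set_option autoImplicit false

noncomputable section

open Fermat.Agent.FF

namespace Fermat.Agent.M59

theorem m59g_local_of_inst (A : ValuationSubring ff_Qb) (L₁ : IntermediateField ℚ ff_Qb)
    (O : Type) [CommRing O] [IsDomain O] [IsDiscreteValuationRing O]
    [Algebra O ff_Qb] [Algebra O (IsLocalRing.ResidueField ↥A)]
    [IsAlgClosed (IsLocalRing.ResidueField ↥A)]
    (𝒜 : Type) [CommRing 𝒜] [Algebra O 𝒜] (C : Type) [CommRing C] [Algebra O C]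
    (π : O) (Λ : ℕ → Submodule O 𝒜) (lead : ∀ m, ↥(Λ m) →ₗ[O] C) (g n m0 c0 : ℕ)
    (M : Type) [AddCommGroup M] [Finite M] [DistribMulAction ff_GQ M]
    (hopen : ∀ x : M, ∃ K : IntermediateField ℚ ff_Qb, FiniteDimensional ℚ K ∧
      ∀ σ ∈ K.fixingSubgroup, σ • x = x)
    (PK : M → Fin g → 𝒜 →ₐ[O] ff_Qb)
    (Pκ : M → Fin g → 𝒜 →ₐ[O] IsLocalRing.ResidueField ↥A)
    (P0 : Fin g → 𝒜 →ₐ[O] O)
    (hrange : Set.range (algebraMap O ff_Qb) = (A : Set ff_Qb) ∩ (L₁ : Set ff_Qb))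
    (hres : ∀ (o : O) (h : algebraMap O ff_Qb o ∈ A),
      IsLocalRing.residue ↥A ⟨_, h⟩ = algebraMap O (IsLocalRing.ResidueField ↥A) o)
    (hpkg : ff_IsPkg O 𝒜 C π ff_Qb (IsLocalRing.ResidueField ↥A) Λ lead g n m0 c0)
    (hP : ∀ z j a, ∃ h : PK z j a ∈ A, IsLocalRing.residue ↥A ⟨_, h⟩ = Pκ z j a)
    (hLK : ∀ x y, ff_LinEq O 𝒜 C ff_Qb Λ lead (ff_ptIdeal ff_Qb (PK (x + y)))
      (ff_ptIdeal ff_Qb fun j => (Algebra.ofId O ff_Qb).comp (P0 j))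
      (ff_ptIdeal ff_Qb (PK x)) (ff_ptIdeal ff_Qb (PK y)))
    (hUK : ∀ z, ff_Uniq O 𝒜 C ff_Qb Λ lead (ff_ptIdeal ff_Qb (PK z)))
    (hLκ : ∀ x y, ff_LinEq O 𝒜 C (IsLocalRing.ResidueField ↥A) Λ lead
      (ff_ptIdeal (IsLocalRing.ResidueField ↥A) (Pκ (x + y)))
      (ff_ptIdeal (IsLocalRing.ResidueField ↥A) fun j =>
        (Algebra.ofId O (IsLocalRing.ResidueField ↥A)).comp (P0 j))
      (ff_ptIdeal (IsLocalRing.ResidueField ↥A) (Pκ x))
      (ff_ptIdeal (IsLocalRing.ResidueField ↥A) (Pκ y)))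
    (hUκ : ∀ z, ff_Uniq O 𝒜 C (IsLocalRing.ResidueField ↥A) Λ lead
      (ff_ptIdeal (IsLocalRing.ResidueField ↥A) (Pκ z)))
    (hequiv : ∀ σ ∈ L₁.fixingSubgroup, ∀ z a i,
      ff_symFun PK a i (σ • z) = σ (ff_symFun PK a i z))
    (hsep : ∀ z z', z ≠ z' → ∃ a i, ff_symFun PK a i z ≠ ff_symFun PK a i z') :
    m59g_IsLocOrd A L₁ M (ff_symAlg PK).toSubring := by
  set H : Subalgebra O (M → ff_Qb) := ff_symAlg PK with hH
  have key : ∀ (c : ff_Qb) (hc : c ∈ A), IsLocalRing.residue ↥A ⟨c, hc⟩ = 0 ↔ c ∈ A.nonunits := by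
    intro c hc
    rw [IsLocalRing.residue_eq_zero_iff, A.mem_nonunits_iff_exists_mem_maximalIdeal]
    exact ⟨fun h => ⟨hc, h⟩, fun ⟨_, h⟩ => h⟩
  have hOA : ∀ o : O, algebraMap O ff_Qb o ∈ A := fun o => by
    have : algebraMap O ff_Qb o ∈ (A : Set ff_Qb) ∩ (L₁ : Set ff_Qb) := by
      rw [← hrange]; exact ⟨o, rfl⟩
    exact this.1
  have hOL : ∀ o : O, algebraMap O ff_Qb o ∈ L₁ := fun o => by
    have : algebraMap O ff_Qb o ∈ (A : Set ff_Qb) ∩ (L₁ : Set ff_Qb) := by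
      rw [← hrange]; exact ⟨o, rfl⟩
    exact this.2
  have hgenA : ∀ (a : 𝒜) (i : ℕ) (z : M), ff_symFun PK a i z ∈ A := by
    intro a i z
    unfold ff_symFun
    rw [Multiset.esymm]
    refine Subring.multiset_sum_mem A.toSubring _ ?_
    intro c hc
    rw [Multiset.mem_map] at hc
    obtain ⟨t, ht, rfl⟩ := hc
    refine Subring.multiset_prod_mem A.toSubring _ ?_
    intro d hd
    have hd' := Multiset.mem_of_le (Multiset.mem_powersetCard.1 ht).1 hd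
    rw [Multiset.mem_map] at hd'
    obtain ⟨j, -, rfl⟩ := hd'
    exact (hP z j a).1
  have hHA : ∀ φ ∈ H, ∀ x : M, φ x ∈ A := by
    intro φ hφ
    induction hφ using Algebra.adjoin_induction with
    | mem φ hφ =>
      obtain ⟨a, i, rfl⟩ := hφ
      exact hgenA a i
    | algebraMap o => exact fun x => hOA o
    | add φ ψ _ _ h1 h2 => exact fun x => A.add_mem _ _ (h1 x) (h2 x)
    | mul φ ψ _ _ h1 h2 => exact fun x => A.mul_mem _ _ (h1 x) (h2 x)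
  have hHeq : ∀ φ ∈ H, ∀ σ ∈ L₁.fixingSubgroup, ∀ x : M, φ (σ • x) = σ (φ x) := by
    intro φ hφ
    induction hφ using Algebra.adjoin_induction with
    | mem φ hφ =>
      obtain ⟨a, i, rfl⟩ := hφ
      exact fun σ hσ x => hequiv σ hσ x a i
    | algebraMap o =>
      intro σ hσ x
      have h1 : (algebraMap O (M → ff_Qb) o) = fun _ => algebraMap O ff_Qb o := rfl
      rw [h1]
      exact (hσ ⟨_, hOL o⟩).symm
    | add φ ψ _ _ h1 h2 =>
      intro σ hσ x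
      rw [Pi.add_apply, Pi.add_apply, h1 σ hσ x, h2 σ hσ x, map_add]
    | mul φ ψ _ _ h1 h2 =>
      intro σ hσ x
      rw [Pi.mul_apply, Pi.mul_apply, h1 σ hσ x, h2 σ hσ x, map_mul]
  obtain ⟨hHfin, hHinj, hHmax⟩ := ffq_seamGAL A L₁ O hrange M hopen H hHA hHeq
  have hΔ := ffa_seamADD O 𝒜 C π ff_Qb (IsLocalRing.ResidueField ↥A) Λ lead g n m0 c0 hpkg M PK Pκ
    P0 A.toSubring (IsLocalRing.residue ↥A)
    (fun o => ⟨hOA o, hres o (hOA o)⟩) hP hLK hUK hLκ hUκ hHfin hHinj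
    (fun 𝔪 h𝔪 => by
      obtain ⟨z, hz⟩ := hHmax 𝔪 h𝔪
      refine ⟨z, fun φ => (hz φ).trans ⟨fun h => ?_, fun h => ?_⟩⟩
      · exact ⟨⟨_, hHA φ φ.2 z⟩, rfl, (key _ (hHA φ φ.2 z)).2 h⟩
      · obtain ⟨c, hc, hc0⟩ := h
        rw [← hc]
        exact (key _ c.2).1 hc0)
  have hmulH : ∀ a b : M → ff_Qb, a ∈ (H : Set (M → ff_Qb)) → b ∈ (H : Set (M → ff_Qb)) →
      a * b ∈ (H : Set (M → ff_Qb)) := fun a b ha hb => H.mul_mem ha hb
  have hcomul : ∀ φ ∈ H, ff_ComulIn (H : Set (M → ff_Qb)) φ := by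
    intro φ hφ
    induction hφ using Algebra.adjoin_induction with
    | mem φ hφ =>
      obtain ⟨a, i, rfl⟩ := hφ
      exact hΔ a i
    | algebraMap o =>
      exact ff_comulIn_const _ (H.algebraMap_mem o) (by
        have := H.one_mem
        exact this)
    | add φ ψ _ _ h1 h2 => exact ff_comulIn_add h1 h2
    | mul φ ψ _ _ h1 h2 => exact ff_comulIn_mul hmulH h1 h2
  refine ⟨fun φ hφ σ hσ x => hHeq φ hφ σ hσ x, fun φ hφ x => hHA φ hφ x,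
    fun x y hxy => ?_, fun φ hφ => hcomul φ hφ⟩
  obtain ⟨a, i, hai⟩ := hsep x y hxy
  exact ⟨ff_symFun PK a i, Algebra.subset_adjoin ⟨a, i, rfl⟩, hai⟩

end Fermat.Agent.M59
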