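/-
M59 / block [G5] (helper29), prefix `m59g_`.  Cell (G5-flat)(P3), package level: points of the fibre as
`O`-algebra maps, their ideals, and `ff_LinEq` / `ff_Uniq` for the Weierstrass chart.
-/
import Mathlib
import Fermat.Agent.FF.SeamsGeom
import Fermat.Agent.M59.G5.Flat.WFibre
import Fermat.Agent.M59.G5.Flat.WLinEq
import Fermat.Agent.M59.G5.Flat.WPkg

set_option autoImplicit false
set_option linter.unusedSimpArgs false
set_option linter.unusedVariables false
set_option linter.unusedSectionVars false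
set_option linter.style.haveILetI false

open Polynomial WeierstrassCurve WeierstrassCurve.Affine Fermat.Agent.FF
open scoped Polynomial.Bivariate TensorProduct

namespace Fermat.Agent.M59

noncomputable section

section Field

variable {K : Type} [Field K] (W : Affine K)

/-- evaluation at a point -/
def m59g_evK {x y : K} (h : W.Equation x y) : W.CoordinateRing →+* K := AdjoinRoot.evalEval h

theorem m59g_evK_mk {x y : K} (h : W.Equation x y) (g : K[X][Y]) :
    m59g_evK W h (CoordinateRing.mk W g) = g.evalEval x y := AdjoinRoot.evalEval_mk h g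

theorem m59g_evK_algebraMap {x y : K} (h : W.Equation x y) (c : K) :
    m59g_evK W h (algebraMap K W.CoordinateRing c) = c := by
  have : algebraMap K W.CoordinateRing c = CoordinateRing.mk W (C (C c)) := rfl
  rw [this, m59g_evK_mk]
  simp

theorem m59g_ker_evK {x y : K} (h : W.Equation x y) :
    RingHom.ker (m59g_evK W h) = CoordinateRing.XYIdeal W x (C y) := by
  have hle : CoordinateRing.XYIdeal W x (C y) ≤ RingHom.ker (m59g_evK W h) := by
    rw [CoordinateRing.XYIdeal, Ideal.span_le]
    intro z hz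
    rcases hz with rfl | rfl
    · rw [SetLike.mem_coe, RingHom.mem_ker, CoordinateRing.XClass, m59g_evK_mk, evalEval_C]
      simp
    · rw [SetLike.mem_coe, RingHom.mem_ker, CoordinateRing.YClass, m59g_evK_mk]
      simp
  have hmax : (CoordinateRing.XYIdeal W x (C y)).IsMaximal := by
    apply Ideal.Quotient.maximal_of_isField
    exact MulEquiv.isField (Field.toIsField K)
      (CoordinateRing.quotientXYIdealEquiv (W' := W) (x := x) (y := C y) h).toMulEquiv
  exact (hmax.eq_of_le (RingHom.ker_ne_top _) hle).symm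

end Field

section Pkg

variable {O : Type} [CommRing O] {K : Type} [Field K] [Algebra O K] (W' : Affine O)

/-- a `K`-point of the fibre as an `O`-algebra map `𝒜 → K` -/
def m59g_pt {x y : K} (h : (m59g_Wk (k := K) W').Equation x y) : W'.CoordinateRing →ₐ[O] K :=
  { (m59g_evK (m59g_Wk (k := K) W') h).comp (CoordinateRing.map W' (algebraMap O K)) with
    commutes' := fun o => by
      have h1 : algebraMap O W'.CoordinateRing o = CoordinateRing.mk W' (C (C o)) := rfl
      show m59g_evK (m59g_Wk (k := K) W') h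
        (CoordinateRing.map W' (algebraMap O K) (algebraMap O W'.CoordinateRing o)) = _
      rw [h1, CoordinateRing.map_mk, m59g_evK_mk]
      simp }

theorem m59g_pt_apply {x y : K} (h : (m59g_Wk (k := K) W').Equation x y) (a : W'.CoordinateRing) :
    m59g_pt W' h a = m59g_evK (m59g_Wk (k := K) W') h (CoordinateRing.map W' (algebraMap O K) a) :=
  rfl

theorem m59g_pt_mk {x y : K} (h : (m59g_Wk (k := K) W').Equation x y) (g : O[X][Y]) :
    m59g_pt W' h (CoordinateRing.mk W' g) =
      (g.map (mapRingHom (algebraMap O K))).evalEval x y := by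
  rw [m59g_pt_apply, CoordinateRing.map_mk, m59g_evK_mk]

theorem m59g_ff_pt_eq {x y : K} (h : (m59g_Wk (k := K) W').Equation x y)
    (t : K ⊗[O] W'.CoordinateRing) :
    ff_pt K (m59g_pt W' h) t = m59g_evK (m59g_Wk (k := K) W') h (m59g_fibreEquiv (k := K) W' t) := by
  induction t using TensorProduct.induction_on with
  | zero => simp
  | tmul c a =>
    rw [ff_pt, Algebra.TensorProduct.lift_tmul, m59g_fibreEquiv_tmul, Algebra.smul_def, map_mul,
      m59g_evK_algebraMap, m59g_pt_apply]
    rfl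
  | add t₁ t₂ h₁ h₂ => rw [map_add, map_add, map_add, h₁, h₂]

/-- the inverse of the fibre isomorphism as a ring homomorphism -/
def m59g_back : (m59g_Wk (k := K) W').CoordinateRing →+* K ⊗[O] W'.CoordinateRing :=
  (m59g_fibreEquiv (k := K) W').symm.toAlgHom.toRingHom

theorem m59g_back_apply (b : (m59g_Wk (k := K) W').CoordinateRing) :
    m59g_back (K := K) W' b = (m59g_fibreEquiv (k := K) W').symm b := rfl

theorem m59g_mem_map_back {I : Ideal (m59g_Wk (k := K) W').CoordinateRing}
    (t : K ⊗[O] W'.CoordinateRing) :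
    t ∈ I.map (m59g_back (K := K) W') ↔ m59g_fibreEquiv (k := K) W' t ∈ I := by
  constructor
  · intro ht
    have hsurj : Function.Surjective (m59g_back (K := K) W') :=
      (m59g_fibreEquiv (k := K) W').symm.surjective
    obtain ⟨z, hz, hzt⟩ := (Ideal.mem_map_iff_of_surjective _ hsurj).1 ht
    rw [← hzt, m59g_back_apply, AlgEquiv.apply_symm_apply]
    exact hz
  · intro ht
    have := Ideal.mem_map_of_mem (m59g_back (K := K) W') ht
    rw [m59g_back_apply, AlgEquiv.symm_apply_apply] at this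
    exact this

theorem m59g_ptIdeal_eq {x y : K} (h : (m59g_Wk (k := K) W').Equation x y) :
    ff_ptIdeal K (fun _ : Fin 1 => m59g_pt W' h) =
      (CoordinateRing.XYIdeal (m59g_Wk (k := K) W') x (C y)).map (m59g_back (K := K) W') := by
  rw [ff_ptIdeal, Fin.prod_univ_one]
  ext t
  rw [RingHom.mem_ker, m59g_ff_pt_eq, ← RingHom.mem_ker, m59g_ker_evK, m59g_mem_map_back]

/-! ### leading terms -/

theorem m59g_leadk_compat (s : ℕ) (u : K ⊗[O] ↥(m59g_Lam W' s)) :
    Algebra.TensorProduct.rid O K K (ff_leadk O W'.CoordinateRing O K (m59g_Lam W') (m59g_lead W') s u) =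
      (m59g_Phi (m59g_Wk (k := K) W') (m59g_fibreEquiv (k := K) W'
        (ff_incl O W'.CoordinateRing K (m59g_Lam W') s u))).coeff s := by
  induction u using TensorProduct.induction_on with
  | zero => simp
  | tmul c x =>
    rw [ff_leadk, LinearMap.baseChange_tmul, Algebra.TensorProduct.rid_tmul, ff_incl,
      LinearMap.baseChange_tmul, Submodule.subtype_apply, m59g_fibreEquiv_tmul, map_smul,
      coeff_smul, m59g_Phi_map, coeff_map, m59g_lead_apply, Algebra.smul_def, smul_eq_mul, mul_comm]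
  | add t₁ t₂ h₁ h₂ => rw [map_add, map_add, map_add, map_add, map_add, coeff_add, h₁, h₂]

theorem m59g_theta_mem (s : ℕ) (u : K ⊗[O] ↥(m59g_Lam W' s)) :
    m59g_fibreEquiv (k := K) W' (ff_incl O W'.CoordinateRing K (m59g_Lam W') s u) ∈
      m59g_Lam (m59g_Wk (k := K) W') s := by
  induction u using TensorProduct.induction_on with
  | zero => simp
  | tmul c x =>
    rw [ff_incl, LinearMap.baseChange_tmul, Submodule.subtype_apply, m59g_fibreEquiv_tmul]
    exact Submodule.smul_mem _ _ (m59g_map_mem_Lam W' x.2)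
  | add t₁ t₂ h₁ h₂ =>
    rw [map_add, map_add]
    exact Submodule.add_mem _ h₁ h₂

/-- truncation: a retraction of `Λ s ⊆ 𝒜` -/
def m59g_trunc (s : ℕ) : W'.CoordinateRing →ₗ[O] W'.CoordinateRing :=
  ∑ w ∈ Finset.range (s + 1), ((lcoeff O w) ∘ₗ (m59g_Phi W')).smulRight (m59g_mon W' w)

theorem m59g_trunc_apply (s : ℕ) (x : W'.CoordinateRing) :
    m59g_trunc W' s x = ∑ w ∈ Finset.range (s + 1), (m59g_Phi W' x).coeff w • m59g_mon W' w := by
  simp [m59g_trunc, LinearMap.sum_apply]

theorem m59g_trunc_mem (s : ℕ) (x : W'.CoordinateRing) : m59g_trunc W' s x ∈ m59g_Lam W' s := by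
  rw [m59g_trunc_apply]
  refine Submodule.sum_mem _ fun w hw => Submodule.smul_mem _ _ ?_
  by_cases h1 : w = 1
  · rw [h1, m59g_mon_one]; exact Submodule.zero_mem _
  · exact m59g_Lam_mono W' (by have := Finset.mem_range.1 hw; omega) (m59g_mon_mem W' w h1)

theorem m59g_incl_injective (s : ℕ) :
    Function.Injective (ff_incl O W'.CoordinateRing K (m59g_Lam W') s) := by
  let r : W'.CoordinateRing →ₗ[O] ↥(m59g_Lam W' s) :=
    (m59g_trunc W' s).codRestrict (m59g_Lam W' s) (m59g_trunc_mem W' s)
  have hr : r ∘ₗ (m59g_Lam W' s).subtype = LinearMap.id := by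
    ext x
    show m59g_trunc W' s (x : W'.CoordinateRing) = (x : W'.CoordinateRing)
    rw [m59g_trunc_apply]
    exact (m59g_eq_sum_mon W' x.2).symm
  have h2 : (r.baseChange K) ∘ₗ (ff_incl O W'.CoordinateRing K (m59g_Lam W') s) = LinearMap.id := by
    rw [ff_incl, ← LinearMap.baseChange_comp, hr, LinearMap.baseChange_id]
  exact Function.LeftInverse.injective (g := r.baseChange K) fun u => LinearMap.congr_fun h2 u

/-! ### `ff_LinEq` and `ff_Uniq` -/

variable [DecidableEq K]

/-- **`ff_LinEq`** from the group law -/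
theorem m59g_linEq {x₁ y₁ x₂ y₂ x₃ y₃ x₄ y₄ : K}
    (h₁ : (m59g_Wk (k := K) W').Nonsingular x₁ y₁) (h₂ : (m59g_Wk (k := K) W').Nonsingular x₂ y₂)
    (h₃ : (m59g_Wk (k := K) W').Nonsingular x₃ y₃) (h₄ : (m59g_Wk (k := K) W').Nonsingular x₄ y₄)
    (hsum : Point.some _ _ h₁ + Point.some _ _ h₂ = Point.some _ _ h₃ + Point.some _ _ h₄) :
    ff_LinEq O W'.CoordinateRing O K (m59g_Lam W') (m59g_lead W')
      (ff_ptIdeal K (fun _ : Fin 1 => m59g_pt W' h₁.1))
      (ff_ptIdeal K (fun _ : Fin 1 => m59g_pt W' h₂.1))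
      (ff_ptIdeal K (fun _ : Fin 1 => m59g_pt W' h₃.1))
      (ff_ptIdeal K (fun _ : Fin 1 => m59g_pt W' h₄.1)) := by
  obtain ⟨s, h, h', hh, hh', hl, hl', heq⟩ := m59g_LE_field (m59g_Wk (k := K) W') h₁ h₂ h₃ h₄ hsum
  obtain ⟨u, hu⟩ := m59g_incl_range W' s h hh
  obtain ⟨u', hu'⟩ := m59g_incl_range W' s h' hh'
  have hunit : ∀ (v : K ⊗[O] ↥(m59g_Lam W' s)) (g : (m59g_Wk (k := K) W').CoordinateRing),
      m59g_fibreEquiv (k := K) W' (ff_incl O W'.CoordinateRing K (m59g_Lam W') s v) = g →
      (m59g_Phi (m59g_Wk (k := K) W') g).coeff s = 1 →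
      IsUnit (ff_leadk O W'.CoordinateRing O K (m59g_Lam W') (m59g_lead W') s v) := by
    intro v g hv hg
    have h1 := m59g_leadk_compat W' s v
    rw [hv, hg] at h1
    have h2 : IsUnit (Algebra.TensorProduct.rid O K K
        (ff_leadk O W'.CoordinateRing O K (m59g_Lam W') (m59g_lead W') s v)) := by
      rw [h1]; exact isUnit_one
    exact (isUnit_map_iff (Algebra.TensorProduct.rid O K K) _).1 h2
  refine ⟨s, u, u', hunit u h hu hl, hunit u' h' hu' hl', ?_⟩
  rw [m59g_ptIdeal_eq, m59g_ptIdeal_eq, m59g_ptIdeal_eq, m59g_ptIdeal_eq]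
  have e1 : ff_incl O W'.CoordinateRing K (m59g_Lam W') s u =
      (m59g_fibreEquiv (k := K) W').symm h := by
    rw [← hu, AlgEquiv.symm_apply_apply]
  have e2 : ff_incl O W'.CoordinateRing K (m59g_Lam W') s u' =
      (m59g_fibreEquiv (k := K) W').symm h' := by
    rw [← hu', AlgEquiv.symm_apply_apply]
  have key := congrArg (Ideal.map (m59g_back (K := K) W')) heq
  rw [Ideal.map_mul, Ideal.map_mul, Ideal.map_mul, Ideal.map_mul, Ideal.map_span, Ideal.map_span,
    Set.image_singleton, Set.image_singleton, m59g_back_apply, m59g_back_apply] at key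
  rw [e1, e2]
  exact key

/-- **`ff_Uniq`** -/
theorem m59g_uniq {x y : K} (h : (m59g_Wk (k := K) W').Equation x y) :
    ff_Uniq O W'.CoordinateRing O K (m59g_Lam W') (m59g_lead W')
      (ff_ptIdeal K (fun _ : Fin 1 => m59g_pt W' h)) := by
  intro s u u' hunit hdiv
  set e := m59g_fibreEquiv (k := K) W' with he
  set U := e (ff_incl O W'.CoordinateRing K (m59g_Lam W') s u) with hU
  set U' := e (ff_incl O W'.CoordinateRing K (m59g_Lam W') s u') with hU'
  have hlead : (m59g_Phi (m59g_Wk (k := K) W') U').coeff s ≠ 0 := by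
    rw [hU', ← m59g_leadk_compat]
    exact ((isUnit_map_iff (Algebra.TensorProduct.rid O K K) _).2 hunit).ne_zero
  have hdiv' : ∀ v ∈ CoordinateRing.XYIdeal (m59g_Wk (k := K) W') x (C y), U' ∣ U * v := by
    intro v hv
    have hv' : e.symm v ∈ ff_ptIdeal K (fun _ : Fin 1 => m59g_pt W' h) := by
      rw [m59g_ptIdeal_eq, m59g_mem_map_back, AlgEquiv.apply_symm_apply]
      exact hv
    obtain ⟨t, ht⟩ := hdiv _ hv'
    refine ⟨e t, ?_⟩
    have := congrArg e ht
    rw [map_mul, map_mul, AlgEquiv.apply_symm_apply] at this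
    exact this
  obtain ⟨c, hc⟩ := m59g_UQ_field (m59g_Wk (k := K) W') h s U U' (m59g_theta_mem W' s u)
    (m59g_theta_mem W' s u') hlead hdiv'
  refine ⟨c, ?_⟩
  apply m59g_incl_injective W' s
  apply e.injective
  rw [map_smul, map_smul]
  exact hc

end Pkg

end

end Fermat.Agent.M59
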